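/-
GATE G2 (local-global at a ramified principal series), abstract layer, hypotheses-first (helper4).

`F` a function field over the constants `K`, `g` a semilinear automorphism (an inertia element),
`d` a second automorphism commuting with `g` (a diamond automorphism), and TWO valuation subrings
`O₁`, `O₂` of `F` ("the two Gauss branches") such that
* `g` acts trivially on the residue field of `O₁` : `g • x - x ∈ 𝔪₁` for `x ∈ O₁`;
* `g` acts on the residue field of `O₂` as `d` does : `g • x - d • x ∈ 𝔪₂` for `x ∈ O₂`;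
* `d` preserves both valuations;
* the value groups are attained on constants, `K` is `n`-divisible;
* (Core-Z for the pair) a Kummer generator `u ∈ H_n` which is `≡ 1` for both branches is moved
  by `g` only by `c · h ^ n`.
Then `(g - 1)² (g - d) = 0` on `Pic0[n]`.

This is the twin of `S34/Z1Abstract.sq_eq_zero_of_coreZ` (where `d = 1`), and it is the whole
algebra between the geometric facts (F1)(F2)(F3) of the gate and the operator identity `LG1Hyp`.
-/
import Fermat.Agent.S34.Z1Abstract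

set_option autoImplicit false

noncomputable section

namespace Fermat.Agent.S43.LG1.Abstract

open AlgebraicCurve Fermat.Agent.S34.KummerZ Fermat.Agent.S34.Z1Abstract
open Fermat.Agent.S34.WeakApprox

variable {K F : Type*} [Field K] [Field F] [Algebra K F]

/-! ### One-units -/

theorem isOneUnit_of_sub_mem {A : ValuationSubring F} {x y : F} (hx : IsOneUnit A x)
    (hxy : y - x ∈ A.nonunits) : IsOneUnit A y := by
  unfold IsOneUnit at *
  have : y - 1 = (y - x) + (x - 1) := by ring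
  rw [this]
  exact A.nonunits.add_mem hxy hx

theorem IsOneUnit.mem {A : ValuationSubring F} {x : F} (h : IsOneUnit A x) : x ∈ A :=
  mem_of_valuation_eq_one h.valuation_eq_one

/-- the quotient of two one-units is a one-unit -/
theorem IsOneUnit.div {A : ValuationSubring F} {x y : F} (hx : IsOneUnit A x)
    (hy : IsOneUnit A y) : IsOneUnit A (y / x) := by
  refine isOneUnit_div_of_sub_mem hx.valuation_eq_one ?_
  have : y - x = (y - 1) - (x - 1) := by ring
  rw [this]
  exact A.nonunits.sub_mem hy hx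

/-! ### The per-class form of the Kummer glue -/

/-- **Kummer glue for one class** (the proof of `KummerZ.sq_eq_zero_of_kummer`, for a single
Kummer generator `f` of a single class): if `g f = c hⁿ u f` and `g u = c' h'ⁿ u`, then
`(g - 1)²` kills the class. -/
theorem sq_eq_zero_at (g : SemilinearAut K F) (n : ℕ) (hn : n ≠ 0)
    (D : Divisor.degZero (K := K) (F := F)) (f : F) (hf : f ≠ 0)
    (hD : ∀ w : Place K F, w.ord f = n * (D : Divisor K F) w)
    (c : K) (h u : F) (hc : c ≠ 0) (hh : h ≠ 0) (hu : u ≠ 0)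
    (hgf : g • f = algebraMap K F c * h ^ n * u * f)
    (c' : K) (h' : F) (hc' : c' ≠ 0) (hh' : h' ≠ 0)
    (hgu : g • u = algebraMap K F c' * h' ^ n * u) :
    g • (g • Pic0.mk D) + Pic0.mk D = 2 • (g • Pic0.mk D) := by
  have hn' : (n : ℤ) ≠ 0 := Int.natCast_ne_zero.mpr hn
  have hcF : algebraMap K F c ≠ 0 := (map_ne_zero _).mpr hc
  have hgf0 : g • f ≠ 0 := by
    rw [hgf]
    exact mul_ne_zero (mul_ne_zero (mul_ne_zero hcF (pow_ne_zero _ hh)) hu) hf
  have hc'F : algebraMap K F c' ≠ 0 := (map_ne_zero _).mpr hc'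
  have hgh : g • h ≠ 0 := by
    rw [SemilinearAut.smul_def]
    exact (map_ne_zero _).mpr hh
  have hgc : SemilinearAut.baseAut g c ≠ 0 := (map_ne_zero _).mpr hc
  have hgcF : algebraMap K F (SemilinearAut.baseAut g c) ≠ 0 := (map_ne_zero _).mpr hgc
  set H : F := g • h * h' * h⁻¹ with hH
  have hH0 : H ≠ 0 := mul_ne_zero (mul_ne_zero hgh hh') (inv_ne_zero hh)
  have key : g • (g • f) * f * algebraMap K F c
      = algebraMap K F (SemilinearAut.baseAut g c) * algebraMap K F c' * H ^ n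
        * ((g • f) * (g • f)) := by
    have e2 : g • (g • f) = algebraMap K F (SemilinearAut.baseAut g c) * (g • h) ^ n
        * (g • u) * (g • f) := by
      conv_lhs => rw [hgf]
      rw [smul_mul', smul_mul', smul_mul', smul_pow', SemilinearAut.smul_algebraMap]
    rw [e2, hgu, hH, mul_pow, mul_pow, inv_pow]
    field_simp
    rw [hgf]
    ring
  have hord : ∀ w : Place K F,
      (D : Divisor K F) (g⁻¹ • (g⁻¹ • w)) + (D : Divisor K F) w
        - 2 * (D : Divisor K F) (g⁻¹ • w) = w.ord H := by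
    intro w
    have e3 := congrArg w.ord key
    have hggf0 : g • (g • f) ≠ 0 := by
      rw [SemilinearAut.smul_def]
      exact (map_ne_zero _).mpr hgf0
    rw [w.ord_mul (mul_ne_zero hggf0 hf) hcF, w.ord_mul hggf0 hf, ord_algebraMap w hc,
      w.ord_mul (mul_ne_zero (mul_ne_zero hgcF hc'F) (pow_ne_zero _ hH0))
        (mul_ne_zero hgf0 hgf0),
      w.ord_mul (mul_ne_zero hgcF hc'F) (pow_ne_zero _ hH0), w.ord_mul hgcF hc'F,
      ord_algebraMap w hgc, ord_algebraMap w hc', w.ord_mul hgf0 hgf0, ord_pow,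
      ord_smul_eq g w (g • f), ord_smul_eq g (g⁻¹ • w) f, ord_smul_eq g w f, hD, hD, hD] at e3
    have e4 : (n : ℤ) * ((D : Divisor K F) (g⁻¹ • (g⁻¹ • w)) + (D : Divisor K F) w
        - 2 * (D : Divisor K F) (g⁻¹ • w)) = (n : ℤ) * w.ord H := by linarith
    exact mul_left_cancel₀ hn' e4
  rw [SemilinearAut.pic0_smul_mk, SemilinearAut.pic0_smul_mk, ← sub_eq_zero, two_smul,
    ← Pic0.mk_add, ← Pic0.mk_add]
  have hsub : Pic0.mk (SemilinearAut.degZeroSMulHom g (SemilinearAut.degZeroSMulHom g D) + D)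
      - Pic0.mk (SemilinearAut.degZeroSMulHom g D + SemilinearAut.degZeroSMulHom g D)
      = Pic0.mk (SemilinearAut.degZeroSMulHom g (SemilinearAut.degZeroSMulHom g D) + D
        - (SemilinearAut.degZeroSMulHom g D + SemilinearAut.degZeroSMulHom g D)) := rfl
  rw [hsub]
  refine mk_eq_zero_of_isDivOf hH0 (fun w => ?_)
  rw [← hord w]
  simp only [AddSubgroup.coe_sub, AddSubgroup.coe_add, SemilinearAut.coe_degZeroSMulHom,
    Finsupp.sub_apply, Finsupp.add_apply, SemilinearAut.divisor_smul_apply]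
  ring

/-! ### Simultaneous normalisation of a function at finitely many Gauss valuations -/

/-- If the value groups are attained on constants and `K` is `n`-divisible, every `f ≠ 0` is
`f' · h ^ n` with `f'` a unit for every `O i`. -/
theorem exists_normalised {ι : Type*} [Finite ι] (O : ι → ValuationSubring F) (n : ℕ)
    (hA : ∀ i, Arch (O i)) (hinc : ∀ i j, i ≠ j → ¬ O i ≤ O j)
    (hval : ∀ i, ∀ f : F, f ≠ 0 →
      ∃ c : K, (O i).valuation f = (O i).valuation (algebraMap K F c))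
    (hdiv : ∀ c : K, ∃ d : K, d ^ n = c)
    (f : F) (hf : f ≠ 0) :
    ∃ h : F, h ≠ 0 ∧ ∀ i, (O i).valuation (f / h ^ n) = 1 := by
  classical
  have h1 : ∀ i, ∃ d : K, d ≠ 0 ∧
      (O i).valuation f = (O i).valuation (algebraMap K F d) ^ n := by
    intro i
    obtain ⟨c, hcv⟩ := hval i f hf
    have hc : c ≠ 0 := by
      rintro rfl
      rw [map_zero, map_zero] at hcv
      exact hf ((Valuation.zero_iff _).mp hcv)
    obtain ⟨d, hd⟩ := hdiv c
    rcases Nat.eq_zero_or_pos n with hn | hn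
    · subst hn
      refine ⟨1, one_ne_zero, ?_⟩
      rw [hcv, ← hd, pow_zero, pow_zero, map_one, map_one]
    · refine ⟨d, ?_, ?_⟩
      · rintro rfl
        rw [zero_pow hn.ne'] at hd
        exact hc hd.symm
      · rw [hcv, ← hd, map_pow, map_pow]
  choose d hd0 hdv using h1
  have hdF : ∀ i, algebraMap K F (d i) ≠ 0 := fun i => (map_ne_zero _).mpr (hd0 i)
  obtain ⟨h, hh0, hh⟩ := exists_simultaneous O hA hinc (fun i => algebraMap K F (d i)) hdF
  refine ⟨h, hh0, fun i => ?_⟩
  have h2 : (O i).valuation (h / algebraMap K F (d i)) = 1 := (hh i).valuation_eq_one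
  rw [map_div₀] at h2
  have h3 : (O i).valuation h = (O i).valuation (algebraMap K F (d i)) := by
    have hne : (O i).valuation (algebraMap K F (d i)) ≠ 0 :=
      (Valuation.ne_zero_iff _).mpr (hdF i)
    rwa [div_eq_one_iff_eq hne] at h2
  rw [map_div₀, map_pow, hdv i, h3]
  exact div_self (pow_ne_zero _ ((Valuation.ne_zero_iff _).mpr (hdF i)))

/-! ### The cubic relation -/

/-- the family of the two branches -/
def pair (O₁ O₂ : ValuationSubring F) : Bool → ValuationSubring F := fun b => bif b then O₁ else O₂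

/-- **`(g - 1)² (g - d) = 0` on `Pic0[n]`** from the two residue-field equivariances and
(Core-Z) for the pair of branches. -/
theorem cube_eq_zero_of_coreZ (g d : SemilinearAut K F) (n : ℕ) (hn : n ≠ 0)
    (O₁ O₂ : ValuationSubring F) (hA₁ : Arch O₁) (hA₂ : Arch O₂)
    (h₁₂ : ¬ O₁ ≤ O₂) (h₂₁ : ¬ O₂ ≤ O₁)
    (htriv : ∀ x ∈ O₁, g • x - x ∈ O₁.nonunits)
    (htw : ∀ x ∈ O₂, g • x - d • x ∈ O₂.nonunits)
    (hd₁ : ∀ x : F, O₁.valuation x = 1 → O₁.valuation (d • x) = 1)
    (hd₂ : ∀ x : F, O₂.valuation x = 1 → O₂.valuation (d • x) = 1)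
    (hd₂m : ∀ x ∈ O₂.nonunits, d • x ∈ O₂.nonunits)
    (hval₁ : ∀ f : F, f ≠ 0 → ∃ c : K, O₁.valuation f = O₁.valuation (algebraMap K F c))
    (hval₂ : ∀ f : F, f ≠ 0 → ∃ c : K, O₂.valuation f = O₂.valuation (algebraMap K F c))
    (hdiv : ∀ c : K, ∃ e : K, e ^ n = c)
    (hcore : ∀ u : F, Hn (K := K) n u → IsOneUnit O₁ u → IsOneUnit O₂ u →
      ∃ (c : K) (h : F), c ≠ 0 ∧ h ≠ 0 ∧ g • u = algebraMap K F c * h ^ n * u)
    (y : Pic0 K F) (hy : (n : ℤ) • y = 0) :
    g • (g • (g • y - d • y)) + (g • y - d • y) = 2 • (g • (g • y - d • y)) := by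
  classical
  obtain ⟨D, f, rfl, hf, hD⟩ := exists_mk_of_zsmul_eq_zero hy
  -- normalise `f` at both branches
  obtain ⟨h0, hh0, hnorm⟩ := exists_normalised (K := K) (pair O₁ O₂) n
    (fun b => by cases b <;> simpa [pair])
    (fun i j hij => by
      cases i <;> cases j <;> simp_all [pair])
    (fun b => by cases b <;> simpa [pair]) hdiv f hf
  have hn₁ : O₁.valuation (f / h0 ^ n) = 1 := hnorm true
  have hn₂ : O₂.valuation (f / h0 ^ n) = 1 := hnorm false
  set f' : F := f / h0 ^ n with hf'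
  have hf'0 : f' ≠ 0 := div_ne_zero hf (pow_ne_zero _ hh0)
  have hff' : f = f' * h0 ^ n := by rw [hf', div_mul_cancel₀ _ (pow_ne_zero _ hh0)]
  -- the ring automorphisms
  have hg0 : ∀ x : F, x ≠ 0 → g • x ≠ 0 := fun x hx => by
    rw [SemilinearAut.smul_def]; exact (map_ne_zero _).mpr hx
  have hd0 : ∀ x : F, x ≠ 0 → d • x ≠ 0 := fun x hx => by
    rw [SemilinearAut.smul_def]; exact (map_ne_zero _).mpr hx
  have hgdiv : ∀ x z : F, g • (x / z) = g • x / g • z := fun x z => by
    rw [SemilinearAut.smul_def, SemilinearAut.smul_def, SemilinearAut.smul_def, map_div₀]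
  -- `a = g f'`, `b = d f'`, `w = a / b`
  set a : F := g • f' with ha
  set b : F := d • f' with hb
  have ha0 : a ≠ 0 := hg0 _ hf'0
  have hb0 : b ≠ 0 := hd0 _ hf'0
  set w : F := a / b with hw
  have hw0 : w ≠ 0 := div_ne_zero ha0 hb0
  have hf'mem₁ : f' ∈ O₁ := mem_of_valuation_eq_one hn₁
  have hf'mem₂ : f' ∈ O₂ := mem_of_valuation_eq_one hn₂
  -- valuations of `a`, `b`
  have hb₁ : O₁.valuation b = 1 := hd₁ f' hn₁
  have hb₂ : O₂.valuation b = 1 := hd₂ f' hn₂
  have ha₁ : O₁.valuation a = 1 := by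
    have h := (isOneUnit_div_of_sub_mem hn₁ (htriv f' hf'mem₁)).valuation_eq_one
    rwa [map_div₀, hn₁, div_one] at h
  -- `w` is a unit at `O₁` and a one-unit at `O₂`
  have hw₁ : O₁.valuation w = 1 := by rw [hw, map_div₀, ha₁, hb₁, div_one]
  have hw₂ : IsOneUnit O₂ w := isOneUnit_div_of_sub_mem hb₂ (htw f' hf'mem₂)
  -- `u = g w / w` is a one-unit at both
  set u : F := g • w / w with hu
  have hgw0 : g • w ≠ 0 := hg0 _ hw0
  have hu0 : u ≠ 0 := div_ne_zero hgw0 hw0
  have hu₁ : IsOneUnit O₁ u :=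
    isOneUnit_div_of_sub_mem hw₁ (htriv w (mem_of_valuation_eq_one hw₁))
  have hdw₂ : IsOneUnit O₂ (d • w) := by
    unfold IsOneUnit
    have : d • w - 1 = d • (w - 1) := by
      rw [smul_sub, smul_one]
    rw [this]
    exact hd₂m _ hw₂
  have hgw₂ : IsOneUnit O₂ (g • w) := isOneUnit_of_sub_mem hdw₂ (htw w (IsOneUnit.mem hw₂))
  have hu₂ : IsOneUnit O₂ u := IsOneUnit.div hw₂ hgw₂
  -- the Kummer generator of the class `g y - d y`
  set p : F := g • h0 with hp
  set r : F := d • h0 with hr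
  have hp0 : p ≠ 0 := hg0 _ hh0
  have hr0 : r ≠ 0 := hd0 _ hh0
  set H0 : F := p / r with hH0
  have hH00 : H0 ≠ 0 := div_ne_zero hp0 hr0
  set w0 : F := g • f / d • f with hw0def
  have hgf0 : g • f ≠ 0 := hg0 _ hf
  have hdf0 : d • f ≠ 0 := hd0 _ hf
  have hw00 : w0 ≠ 0 := div_ne_zero hgf0 hdf0
  have hw0eq : w0 = w * H0 ^ n := by
    have e1 : g • f = a * p ^ n := by rw [hff', smul_mul', smul_pow']
    have e2 : d • f = b * r ^ n := by rw [hff', smul_mul', smul_pow']
    rw [hw0def, e1, e2, hw, hH0, div_pow]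
    field_simp
  set h : F := g • H0 / H0 with hh
  have hgH0 : g • H0 ≠ 0 := hg0 _ hH00
  have hh00 : h ≠ 0 := div_ne_zero hgH0 hH00
  have hgw0eq : g • w0 = algebraMap K F 1 * h ^ n * u * w0 := by
    have e3 : g • w0 = g • w * (g • H0) ^ n := by rw [hw0eq, smul_mul', smul_pow']
    rw [e3, hw0eq, hh, hu, map_one, div_pow]
    field_simp
  -- orders
  have hordw0 : ∀ v : Place K F, v.ord w0 = n * ((D : Divisor K F) (g⁻¹ • v)
      - (D : Divisor K F) (d⁻¹ • v)) := by
    intro v
    rw [hw0def, div_eq_mul_inv, v.ord_mul hgf0 (inv_ne_zero hdf0), v.ord_inv, ord_smul_eq,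
      ord_smul_eq, hD, hD]
    ring
  have hordw : ∀ v : Place K F, (n : ℤ) ∣ v.ord w := by
    intro v
    have e : w = w0 * (H0 ^ n)⁻¹ := by
      rw [hw0eq, mul_assoc, mul_inv_cancel₀ (pow_ne_zero _ hH00), mul_one]
    rw [e, v.ord_mul hw00 (inv_ne_zero (pow_ne_zero _ hH00)), v.ord_inv, ord_pow, hordw0]
    exact ⟨(D : Divisor K F) (g⁻¹ • v) - (D : Divisor K F) (d⁻¹ • v) - v.ord H0, by ring⟩
  have hHu : Hn (K := K) n u := by
    refine ⟨hu0, fun v => ?_⟩
    rw [hu, div_eq_mul_inv, v.ord_mul hgw0 (inv_ne_zero hw0), v.ord_inv, ord_smul_eq]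
    exact dvd_sub (hordw _) (hordw _)
  obtain ⟨c', h', hc', hh', hgu⟩ := hcore u hHu hu₁ hu₂
  -- the class `g y - d y`
  set Dz : Divisor.degZero (K := K) (F := F) :=
    SemilinearAut.degZeroSMulHom g D - SemilinearAut.degZeroSMulHom d D with hDz
  have hz : g • Pic0.mk D - d • Pic0.mk D = Pic0.mk Dz := by
    rw [SemilinearAut.pic0_smul_mk, SemilinearAut.pic0_smul_mk, hDz]
    rfl
  rw [hz]
  refine sq_eq_zero_at g n hn Dz w0 hw00 (fun v => ?_) 1 h u one_ne_zero hh00 hu0 hgw0eq
    c' h' hc' hh' hgu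
  rw [hordw0, hDz]
  simp only [AddSubgroup.coe_sub, SemilinearAut.coe_degZeroSMulHom, Finsupp.sub_apply,
    SemilinearAut.divisor_smul_apply]

end Fermat.Agent.S43.LG1.Abstract
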