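/-
PROJECT R (row 37 by S43), gate G2* / LG1Hyp, abstract layer 2 (helper4): **the second branch and
the twisted equivariance (F2) from a Fricke automorphism.**

`F` a function field over `K`, `g` a semilinear automorphism (an inertia element), `V` ONE
valuation ring of `F` on whose residue field `g` acts trivially (the Gauss branch of the rational
`q`-expansion), `w` a `K`-automorphism of `F` (the Fricke involution at `q`) and `δ` a
`K`-automorphism of `F` (the diamond `⟨d_s⟩`) such that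
* `g w = w δ g`   (`w` is defined over `ℚ(ζ_q)` and its conjugates are its diamond translates),
* `g δ = δ g`     (`δ` is defined over `ℚ`),
* `w δ = δ⁻¹ w`,
* `δ` preserves `V`.
Then on the second branch `V' = w⁻¹ V` (`pull V w`) the element `g` acts on the residue field as
`δ⁻¹` (this is (F2)), all the hypotheses of `Abstract.cube_eq_zero_of_coreZ` hold for `(V, V')`,
and (Core-Z) for the pair gives `(g - 1)² (g - δ⁻¹) = 0` on `Pic0[n]`.
-/
import Fermat.Agent.S43.LG1.Abstract

set_option autoImplicit false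

noncomputable section

namespace Fermat.Agent.S43.LG1.OfFricke

open AlgebraicCurve Fermat.Agent.S34.KummerZ Fermat.Agent.S34.Z1Abstract
open Fermat.Agent.S34.WeakApprox Fermat.Agent.S43.LG1.Abstract

variable {K F : Type*} [Field K] [Field F] [Algebra K F]

/-! ### Valuation rings, membership form -/

theorem mem_nonunits_iff_inv_not_mem (A : ValuationSubring F) {x : F} (hx : x ≠ 0) :
    x ∈ A.nonunits ↔ x⁻¹ ∉ A := by
  rw [A.mem_nonunits_iff, ← A.valuation_le_one_iff, map_inv₀, not_le]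
  have h0 : A.valuation x ≠ 0 := (Valuation.ne_zero_iff _).mpr hx
  constructor
  · intro h
    exact (one_lt_inv₀ (zero_lt_iff.mpr h0)).mpr h
  · intro h
    exact (one_lt_inv₀ (zero_lt_iff.mpr h0)).mp h

theorem valuation_eq_one_iff_mem (A : ValuationSubring F) {x : F} (hx : x ≠ 0) :
    A.valuation x = 1 ↔ x ∈ A ∧ x⁻¹ ∈ A := by
  have h0 : A.valuation x ≠ 0 := (Valuation.ne_zero_iff _).mpr hx
  rw [← A.valuation_le_one_iff, ← A.valuation_le_one_iff, map_inv₀]
  constructor
  · intro h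
    rw [h, inv_one]
    exact ⟨le_rfl, le_rfl⟩
  · rintro ⟨h1, h2⟩
    refine le_antisymm h1 ?_
    exact (inv_le_one₀ (zero_lt_iff.mpr h0)).mp h2

theorem valuation_eq_iff_div_mem (A : ValuationSubring F) {x y : F} (hx : x ≠ 0) (hy : y ≠ 0) :
    A.valuation x = A.valuation y ↔ x / y ∈ A ∧ y / x ∈ A := by
  have hxy : x / y ≠ 0 := div_ne_zero hx hy
  have hy0 : A.valuation y ≠ 0 := (Valuation.ne_zero_iff _).mpr hy
  have h1 : A.valuation x = A.valuation y ↔ A.valuation (x / y) = 1 := by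
    rw [map_div₀, div_eq_one_iff_eq hy0]
  rw [h1, valuation_eq_one_iff_mem A hxy, inv_div]

/-! ### The pulled-back valuation ring -/

/-- `w⁻¹ V` : `x ∈ pull V w ↔ w x ∈ V` -/
def pull (V : ValuationSubring F) (w : F ≃ₐ[K] F) : ValuationSubring F :=
  V.comap (w : F →+* F)

theorem mem_pull {V : ValuationSubring F} {w : F ≃ₐ[K] F} {x : F} :
    x ∈ pull V w ↔ w x ∈ V := Iff.rfl

theorem mem_nonunits_pull {V : ValuationSubring F} {w : F ≃ₐ[K] F} {x : F} :
    x ∈ (pull V w).nonunits ↔ w x ∈ V.nonunits := by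
  rcases eq_or_ne x 0 with rfl | hx
  · rw [map_zero]
    exact ⟨fun _ => V.nonunits.zero_mem, fun _ => (pull V w).nonunits.zero_mem⟩
  · have hwx : w x ≠ 0 := (map_ne_zero _).mpr hx
    rw [mem_nonunits_iff_inv_not_mem _ hx, mem_nonunits_iff_inv_not_mem _ hwx, mem_pull, map_inv₀]

theorem valuation_pull_eq_one_iff {V : ValuationSubring F} {w : F ≃ₐ[K] F} {x : F} :
    (pull V w).valuation x = 1 ↔ V.valuation (w x) = 1 := by
  rcases eq_or_ne x 0 with rfl | hx
  · rw [map_zero, map_zero, map_zero]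
    exact ⟨fun h => absurd h zero_ne_one, fun h => absurd h zero_ne_one⟩
  · have hwx : w x ≠ 0 := (map_ne_zero _).mpr hx
    rw [valuation_eq_one_iff_mem _ hx, valuation_eq_one_iff_mem _ hwx, mem_pull, mem_pull,
      map_inv₀]

theorem arch_pull {V : ValuationSubring F} (hV : Arch V) (w : F ≃ₐ[K] F) : Arch (pull V w) := by
  intro a c hc hc0
  obtain ⟨k, hk⟩ := hV (w a) (w c) (mem_nonunits_pull.mp hc) ((map_ne_zero _).mpr hc0)
  refine ⟨k, ?_⟩
  rw [mem_pull, map_mul, map_pow]
  exact hk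

theorem pull_ne_top {V : ValuationSubring F} (hV : V ≠ ⊤) (w : F ≃ₐ[K] F) : pull V w ≠ ⊤ := by
  intro h
  apply hV
  rw [eq_top_iff]
  intro x _
  have : w.symm x ∈ pull V w := by rw [h]; trivial
  rw [mem_pull, AlgEquiv.apply_symm_apply] at this
  exact this

theorem hval_pull {V : ValuationSubring F} (w : F ≃ₐ[K] F)
    (hval : ∀ f : F, f ≠ 0 → ∃ c : K, V.valuation f = V.valuation (algebraMap K F c))
    (f : F) (hf : f ≠ 0) :
    ∃ c : K, (pull V w).valuation f = (pull V w).valuation (algebraMap K F c) := by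
  have hwf : w f ≠ 0 := (map_ne_zero _).mpr hf
  obtain ⟨c, hc⟩ := hval (w f) hwf
  have hc0 : c ≠ 0 := by
    rintro rfl
    rw [map_zero, map_zero] at hc
    exact hwf ((Valuation.zero_iff _).mp hc)
  have hcF : algebraMap K F c ≠ 0 := (map_ne_zero _).mpr hc0
  refine ⟨c, ?_⟩
  rw [valuation_eq_iff_div_mem _ hf hcF, mem_pull, mem_pull, map_div₀, map_div₀, w.commutes]
  exact (valuation_eq_iff_div_mem _ hwf hcF).mp hc

/-! ### (F2) on the pulled-back branch and the cubic relation -/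

section Main

variable (g : SemilinearAut K F) (w δ : F ≃ₐ[K] F)
  (hgw : ∀ x : F, g • w x = w (δ (g • x)))
  (hgδ : ∀ x : F, g • δ x = δ (g • x))
  (hwδ : ∀ x : F, w (δ x) = δ.symm (w x))

include hgδ in
theorem smul_symm (x : F) : g • δ.symm x = δ.symm (g • x) := by
  apply δ.injective
  rw [← hgδ, AlgEquiv.apply_symm_apply, AlgEquiv.apply_symm_apply]

include hwδ in
theorem w_symm (x : F) : w (δ.symm x) = δ (w x) := by
  have h := hwδ (δ.symm x)
  rw [AlgEquiv.apply_symm_apply] at h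
  rw [h, AlgEquiv.apply_symm_apply]

include hgw hgδ in
theorem w_smul (x : F) : w (g • x) = g • w (δ.symm x) := by
  rw [hgw, smul_symm g δ hgδ, AlgEquiv.apply_symm_apply]

variable {V : ValuationSubring F}
  (htriv : ∀ x ∈ V, g • x - x ∈ V.nonunits) (hδV : ∀ x : F, δ x ∈ V ↔ x ∈ V)

include hgw hgδ hwδ htriv hδV in
/-- **(F2)** : on the branch `w⁻¹ V` the element `g` acts on the residue field as `δ⁻¹`. -/
theorem htw_pull (x : F) (hx : x ∈ pull V w) :
    g • x - SemilinearAut.ofAlgAut δ.symm • x ∈ (pull V w).nonunits := by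
  rw [SemilinearAut.ofAlgAut_smul, mem_nonunits_pull, map_sub, w_smul g w δ hgw hgδ,
    w_symm w δ hwδ x]
  have ht : w (δ.symm x) ∈ V := by
    rw [w_symm w δ hwδ, hδV]
    exact hx
  have := htriv _ ht
  rwa [w_symm w δ hwδ] at this

include hδV in
theorem symm_mem_iff (x : F) : δ.symm x ∈ V ↔ x ∈ V := by
  rw [← hδV (δ.symm x), AlgEquiv.apply_symm_apply]

include hwδ hδV in
theorem symm_mem_pull_iff (x : F) : δ.symm x ∈ pull V w ↔ x ∈ pull V w := by
  rw [mem_pull, mem_pull, w_symm w δ hwδ, hδV]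

include hδV in
theorem hd₁ (x : F) (hx : V.valuation x = 1) :
    V.valuation (SemilinearAut.ofAlgAut δ.symm • x) = 1 := by
  have hx0 : x ≠ 0 := by
    rintro rfl
    rw [map_zero] at hx
    exact zero_ne_one hx
  rw [SemilinearAut.ofAlgAut_smul]
  rw [valuation_eq_one_iff_mem _ hx0] at hx
  rw [valuation_eq_one_iff_mem _ ((map_ne_zero _).mpr hx0), ← map_inv₀,
    symm_mem_iff δ hδV, symm_mem_iff δ hδV]
  exact hx

include hwδ hδV in
theorem hd₂ (x : F) (hx : (pull V w).valuation x = 1) :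
    (pull V w).valuation (SemilinearAut.ofAlgAut δ.symm • x) = 1 := by
  have hx0 : x ≠ 0 := by
    rintro rfl
    rw [map_zero] at hx
    exact zero_ne_one hx
  rw [SemilinearAut.ofAlgAut_smul]
  rw [valuation_eq_one_iff_mem _ hx0] at hx
  rw [valuation_eq_one_iff_mem _ ((map_ne_zero _).mpr hx0), ← map_inv₀,
    symm_mem_pull_iff w δ hwδ hδV, symm_mem_pull_iff w δ hwδ hδV]
  exact hx

include hwδ hδV in
theorem hd₂m (x : F) (hx : x ∈ (pull V w).nonunits) :
    SemilinearAut.ofAlgAut δ.symm • x ∈ (pull V w).nonunits := by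
  rw [SemilinearAut.ofAlgAut_smul]
  rcases eq_or_ne x 0 with rfl | hx0
  · rw [map_zero]
    exact (pull V w).nonunits.zero_mem
  · rw [mem_nonunits_iff_inv_not_mem _ hx0] at hx
    rw [mem_nonunits_iff_inv_not_mem _ ((map_ne_zero _).mpr hx0), ← map_inv₀,
      symm_mem_pull_iff w δ hwδ hδV]
    exact hx

include hgw hgδ hwδ htriv hδV in
/-- **`(g - 1)² (g - δ⁻¹) = 0` on `Pic0[n]`** from ONE branch `V` with trivial residual action,
the Fricke automorphism `w` with its twisted equivariance, and (Core-Z) for the pair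
`(V, w⁻¹ V)`. -/
theorem cube_eq_zero_of_fricke (n : ℕ) (hn : n ≠ 0) (hA : Arch V) (htop : V ≠ ⊤)
    (hne : V ≠ pull V w)
    (hval : ∀ f : F, f ≠ 0 → ∃ c : K, V.valuation f = V.valuation (algebraMap K F c))
    (hdiv : ∀ c : K, ∃ e : K, e ^ n = c)
    (hcore : ∀ u : F, Hn (K := K) n u → IsOneUnit V u → IsOneUnit (pull V w) u →
      ∃ (c : K) (h : F), c ≠ 0 ∧ h ≠ 0 ∧ g • u = algebraMap K F c * h ^ n * u)
    (y : Pic0 K F) (hy : (n : ℤ) • y = 0) :
    g • (g • (g • y - SemilinearAut.ofAlgAut δ.symm • y))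
        + (g • y - SemilinearAut.ofAlgAut δ.symm • y)
      = 2 • (g • (g • y - SemilinearAut.ofAlgAut δ.symm • y)) := by
  have hA' : Arch (pull V w) := arch_pull hA w
  have htop' : pull V w ≠ ⊤ := pull_ne_top htop w
  refine cube_eq_zero_of_coreZ g (SemilinearAut.ofAlgAut δ.symm) n hn V (pull V w) hA hA'
    (fun hle => hne (le_antisymm hle (hA.le_of_le hle htop')))
    (fun hle => hne (le_antisymm (hA'.le_of_le hle htop) hle))
    htriv (htw_pull g w δ hgw hgδ hwδ htriv hδV) (hd₁ δ hδV) (hd₂ w δ hwδ hδV)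
    (hd₂m w δ hwδ hδV) hval (hval_pull w hval) hdiv hcore y hy

end Main

end Fermat.Agent.S43.LG1.OfFricke
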