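/-
PROJECT R (row 37 by S43), gate G2* / LG1Hyp, the INSTANCE layer (helper4): the literal operator
identity `LG1Hyp N q p` on `J₁(N q)` (S48/B vocabulary) from ONE named seam `GateSeam`.

* `GateSeam M p s d` : for the inertia element `s` and the diamond `d` there are a Fricke
  automorphism `w` of `ℚ̄(X₁(M))` and ONE Gauss branch `V` with
  (W) `s w = w ⟨d⟩ s`, `w ⟨d⟩ = ⟨d⟩⁻¹ w`;
  (V) `s` acts trivially on the residue field of `V`, `⟨d⟩` preserves `V`, `V` is archimedean,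
      proper, moved by `w`, and its value group is attained on constants;
  (C) (Core-Z) for the pair `(V, w⁻¹ V)` at every `p`-power.
  (`s ⟨d⟩ = ⟨d⟩ s` is on main: `S48/B/Red/Diamond1.arithmeticGalois_mul_ofAlgAut`.)
* `cube_of_gateSeam` : `(s - 1)² (s - ⟨d⟩⁻¹) = 0` on the `p`-power torsion of `J₁(M)`;
* `LG1Hyp N q p`, `lg1Hyp_of_gateSeam`.
-/
import Fermat.Agent.S43.LG1.OfFricke
import Fermat.Agent.S48.B.Red.Diamond1
import Fermat.Agent.S48.B.B1.Main

set_option autoImplicit false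
set_option linter.unusedSectionVars false

noncomputable section

namespace Fermat.Agent.S43.LG1.Instance

open AlgebraicCurve AlgebraicCurve.SemilinearAut ModularCurve
open Fermat.Agent.S48.B.Defs.Model
open Fermat.Agent.S34.KummerZ Fermat.Agent.S34.Z1Abstract Fermat.Agent.S34.WeakApprox
open Fermat.Agent.S43.LG1.OfFricke

local notation "Kb" => AlgebraicClosure ℚ

variable (M : ℕ) [NeZero M]

/-- **The gate seam** for one Galois element `s` and one diamond `d`. -/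
def GateSeam (p : ℕ) (s : Kb ≃ₐ[ℚ] Kb) (d : (ZMod M)ˣ) : Prop :=
  ∃ (w : F1Bar M ≃ₐ[Kb] F1Bar M) (V : ValuationSubring (F1Bar M)),
    (∀ x : F1Bar M, arithmeticGalois (F1 M) s • w x
        = w (diamondAut M Kb d (arithmeticGalois (F1 M) s • x))) ∧
    (∀ x : F1Bar M, w (diamondAut M Kb d x) = (diamondAut M Kb d).symm (w x)) ∧
    (∀ x ∈ V, arithmeticGalois (F1 M) s • x - x ∈ V.nonunits) ∧
    (∀ x : F1Bar M, diamondAut M Kb d x ∈ V ↔ x ∈ V) ∧
    Arch V ∧ V ≠ ⊤ ∧ V ≠ pull V w ∧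
    (∀ f : F1Bar M, f ≠ 0 →
      ∃ c : Kb, V.valuation f = V.valuation (algebraMap Kb (F1Bar M) c)) ∧
    ∀ k : ℕ, ∀ u : F1Bar M, Hn (K := Kb) (p ^ k) u → IsOneUnit V u → IsOneUnit (pull V w) u →
      ∃ (c : Kb) (h : F1Bar M), c ≠ 0 ∧ h ≠ 0 ∧
        arithmeticGalois (F1 M) s • u = algebraMap Kb (F1Bar M) c * h ^ (p ^ k) * u

/-- the inverse diamond, as an operator on `J₁(M)` -/
def dInv (d : (ZMod M)ˣ) : SemilinearAut Kb (F1Bar M) := ofAlgAut (diamondAut M Kb d).symm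

variable {M}

/-- **`(s - 1)² (s - ⟨d⟩⁻¹) = 0` on the `p`-power torsion of `J₁(M)`** from the gate seam. -/
theorem cube_of_gateSeam {p : ℕ} (hp : p ≠ 0) {s : Kb ≃ₐ[ℚ] Kb} {d : (ZMod M)ˣ}
    (h : GateSeam M p s d) (y : J1 M) (hy : ∃ k : ℕ, p ^ k • y = 0) :
    s • (s • (s • y - dInv M d • y)) + (s • y - dInv M d • y)
      = 2 • (s • (s • y - dInv M d • y)) := by
  obtain ⟨w, V, hgw, hwδ, htriv, hδV, hA, htop, hne, hval, hcore⟩ := h
  obtain ⟨k, hk⟩ := hy
  have hDia := Fermat.Agent.S48.B.B1.Main.diamondExists M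
  have hgδ : ∀ x : F1Bar M, arithmeticGalois (F1 M) s • diamondAut M Kb d x
      = diamondAut M Kb d (arithmeticGalois (F1 M) s • x) := by
    intro x
    have h1 := Fermat.Agent.S48.B.Red.Diamond1.arithmeticGalois_mul_ofAlgAut hDia d s
    have h2 := congrArg (fun g : SemilinearAut Kb (F1Bar M) => g • x) h1
    simp only [mul_smul, ofAlgAut_smul] at h2
    exact h2
  have hk' : ((p ^ k : ℕ) : ℤ) • y = 0 := by
    rw [natCast_zsmul]
    exact hk
  rw [galois_smul_pic0_def, galois_smul_pic0_def, galois_smul_pic0_def]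
  exact cube_eq_zero_of_fricke (arithmeticGalois (F1 M) s) w (diamondAut M Kb d) hgw hgδ hwδ
    htriv hδV (p ^ k) (pow_ne_zero k hp) hA htop hne hval
    (fun c => IsAlgClosed.exists_pow_nat_eq c (Nat.pos_of_ne_zero (pow_ne_zero k hp)))
    (hcore k) y hk'

/-! ### The literal gate -/

/-- `d` is the diamond of the inertia element `s` at `q` : it is `1` modulo `N` and the cyclotomic
character of `s` modulo `q`. -/
def IsInertiaDiamond (N q : ℕ) (s : Kb ≃ₐ[ℚ] Kb) (d : (ZMod (N * q))ˣ) : Prop :=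
  (∀ ζ : Kb, ζ ^ q = 1 → s ζ = ζ ^ ((d : ZMod (N * q)).val)) ∧
    ((((d : ZMod (N * q)).val : ℕ) : ZMod N) = 1)

/-- **The gate G2\* / LG1Hyp**: for every inertia element `s` at `q` and its diamond `d_s`,
`(s - 1)² (s - ⟨d_s⟩⁻¹) = 0` on the `p`-power torsion of `J₁(N q)`. -/
def LG1Hyp (N q p : ℕ) [NeZero (N * q)] : Prop :=
  ∀ A : ValuationSubring Kb, A.LiesOverPrime q → ∀ s ∈ A.inertiaSubgroupIn ℚ,
    ∀ d : (ZMod (N * q))ˣ, IsInertiaDiamond N q s d →
      ∀ y : J1 (N * q), (∃ k : ℕ, p ^ k • y = 0) →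
        s • (s • (s • y - dInv (N * q) d • y)) + (s • y - dInv (N * q) d • y)
          = 2 • (s • (s • y - dInv (N * q) d • y))

/-- **LG1Hyp from the gate seam.** -/
theorem lg1Hyp_of_gateSeam {N q p : ℕ} [NeZero (N * q)] (hp : p ≠ 0)
    (h : ∀ A : ValuationSubring Kb, A.LiesOverPrime q → ∀ s ∈ A.inertiaSubgroupIn ℚ,
      ∀ d : (ZMod (N * q))ˣ, IsInertiaDiamond N q s d → GateSeam (N * q) p s d) :
    LG1Hyp N q p :=
  fun A hA s hs d hd y hy => cube_of_gateSeam hp (h A hA s hs d hd) y hy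

end Fermat.Agent.S43.LG1.Instance
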