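/-
PROJECT R (row 37 by S43), gate G2* / LG1Hyp (helper4): THE GATE IN THE CHIEF'S LITERAL.

`S43/Seam.LG1HypAt N q p inv` (helper8) is stated with the operator `diamond1Bar (N q) (d ^ ±1)`
(`⟨d⟩_*`, the push-forward, `S48/B/Defs/Model`); `S43/LG1/Instance.LG1Hyp` (the literal proved from
the gate seam) is stated with `dInv (N q) d = ofAlgAut (diamondAut (N q) ℚ̄ d).symm`.

* `diamond1Bar_eq_dInv` : `diamond1Bar M d x = dInv M d • x` (hypothesis-free: `Hecke/Wire` +
  `B1/DiamondUnique.diamondAut_inv`);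
* `lg1HypAt_false`, `lg1Hyp` : **the sign is `inv = false`**: `(s - 1)² (s - ⟨d_s⟩_*) = 0`.
-/
import Fermat.Agent.S43.LG1.Instance
import Fermat.Agent.S43.Seam
import Fermat.Agent.S48.B.Hecke.Wire
import Fermat.Agent.S48.B.B1.Main
import Fermat.Agent.S48.B.Red.Diamond1
import Fermat.Agent.S48.B.B1.DiamondUnique

set_option autoImplicit false

noncomputable section

namespace Fermat.Agent.S43.LG1.ToSeam

open AlgebraicCurve AlgebraicCurve.SemilinearAut ModularCurve
open Fermat.Agent.S48.B.Defs.Model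
open Fermat.Agent.S43.LG1.Instance

local notation "Kb" => AlgebraicClosure ℚ

/-- **`⟨d⟩_* = diamond1Bar M d` is the action of the inverse diamond automorphism.** -/
theorem diamond1Bar_eq_dInv (M : ℕ) [NeZero M] (d : (ZMod M)ˣ) (x : J1 M) :
    diamond1Bar M d x = dInv M d • x := by
  rw [Fermat.Agent.S48.B.Red.Diamond1.diamond1Bar_eq_smul d
    (Fermat.Agent.S48.B.Hecke.Wire.corrDiamond_of (Fermat.Agent.S48.B.B1.Main.deg1 M) d⁻¹) x, dInv,
    Fermat.Agent.S48.B.B1.DiamondUnique.diamondAut_inv (Fermat.Agent.S48.B.B1.Main.wpForms M)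
      (Fermat.Agent.S48.B.B1.Main.repLe M) d]

/-- the two forms of `d ≡ 1 mod N` agree -/
theorem isOneModLeft_iff (N q : ℕ) [NeZero (N * q)] (d : (ZMod (N * q))ˣ) :
    Fermat.Agent.S43.Seam.IsOneModLeft N q d ↔ (((d : ZMod (N * q)).val : ℕ) : ZMod N) = 1 := by
  unfold Fermat.Agent.S43.Seam.IsOneModLeft
  rw [ZMod.castHom_apply, ZMod.natCast_val]

/-- **The gate in the chief's literal, with the sign `inv = false`.** -/
theorem lg1HypAt_false {N q p : ℕ} [NeZero (N * q)] (h : LG1Hyp N q p) :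
    Fermat.Agent.S43.Seam.LG1HypAt N q p false := by
  intro A hA s hs d hd1 hμ y hy
  have hd : IsInertiaDiamond N q s d := ⟨hμ, (isOneModLeft_iff N q d).mp hd1⟩
  have h1 := h A hA s hs d hd y hy
  unfold Fermat.Agent.S43.Seam.CubicAt
  simp only [Bool.false_eq_true, if_false]
  rw [diamond1Bar_eq_dInv]
  generalize s • y - dInv (N * q) d • y = z at h1 ⊢
  rw [two_smul] at h1
  have h2 : s • s • z = s • z + s • z - z := by rw [← h1]; abel
  rw [smul_sub, h2]
  abel

theorem lg1Hyp {N q p : ℕ} [NeZero (N * q)] (h : LG1Hyp N q p) :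
    Fermat.Agent.S43.Seam.LG1Hyp N q p :=
  ⟨false, lg1HypAt_false h⟩

end Fermat.Agent.S43.LG1.ToSeam
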