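/-
PROJECT R (row 37 by S43), gate G2* / LG1Hyp (helper4): THE EVEN VARIANT OF THE GATE
(chief's decision #6113 (2), helper17's question in #6103 (iv)).

Every consumer (L0-L2) works on the `e_H`-part of `J₁(N q)`, `H` the full prime-to-`p` part of the
`q`-diamonds, which contains `d' = (1 mod N, -1 mod q)`.  So the gate is only needed for the points
`y` with `⟨d'⟩ y = y`:

* `IsEvenAt N q y` : `diamond1Bar (N q) d' y = y` for every `d'` with `d' ≡ 1 mod N`, `d' * d' = 1`;
* `LG1HypAtEven N q p inv` : the consumer literal (chief's vocabulary `S43/Seam`);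
* `GateEven N q p` : the producer literal (vocabulary of `LG1/Instance`);
* `lg1HypAtEven_of_lg1HypAt`, `gateEven_of_lg1Hyp` : the full gate gives the even one;
* `lg1HypAtEven_false` : `GateEven N q p → LG1HypAtEven N q p false`;
* `galoisHom_cubic_even` : the even gate on the Tate module.
-/
import Fermat.Agent.S43.LG1.ToSeam
import Fermat.Agent.S30.Padic.TateModule

set_option autoImplicit false
set_option linter.unusedSectionVars false

noncomputable section

namespace Fermat.Agent.S43.LG1.Even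

open AlgebraicCurve AlgebraicCurve.SemilinearAut ModularCurve
open Fermat.Agent.S48.B.Defs.Model
open Fermat.Agent.S43.LG1.Instance Fermat.Agent.S43.LG1.ToSeam
open Fermat.Agent.S43.Seam
open Fermat.Agent.S30.Padic.TateModule

local notation "Kb" => AlgebraicClosure ℚ

/-- `y` is fixed by the diamonds of order at most two of the `q`-part (`d' = (1 mod N, ± 1 mod q)`) -/
def IsEvenAt (N q : ℕ) [NeZero (N * q)] (y : J1 (N * q)) : Prop :=
  ∀ d' : (ZMod (N * q))ˣ, IsOneModLeft N q d' → d' * d' = 1 → diamond1Bar (N * q) d' y = y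

/-- **THE EVEN GATE, consumer literal.** -/
def LG1HypAtEven (N q p : ℕ) [NeZero (N * q)] (inv : Bool) : Prop :=
  ∀ A : ValuationSubring Kb, A.LiesOverPrime q →
    ∀ s ∈ A.inertiaSubgroupIn ℚ, ∀ d : (ZMod (N * q))ˣ,
      IsOneModLeft N q d → ActsOnMuAs N q s d →
      ∀ y : J1 (N * q), (∃ n : ℕ, p ^ n • y = 0) → IsEvenAt N q y →
        CubicAt s (diamond1Bar (N * q) (if inv then d⁻¹ else d)) y

/-- **THE EVEN GATE, producer literal** (vocabulary of `LG1/Instance`). -/
def GateEven (N q p : ℕ) [NeZero (N * q)] : Prop :=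
  ∀ A : ValuationSubring Kb, A.LiesOverPrime q → ∀ s ∈ A.inertiaSubgroupIn ℚ,
    ∀ d : (ZMod (N * q))ˣ, IsInertiaDiamond N q s d →
      ∀ y : J1 (N * q), (∃ k : ℕ, p ^ k • y = 0) →
        (∀ d' : (ZMod (N * q))ˣ, (((d' : ZMod (N * q)).val : ℕ) : ZMod N) = 1 → d' * d' = 1 →
          dInv (N * q) d' • y = y) →
        s • (s • (s • y - dInv (N * q) d • y)) + (s • y - dInv (N * q) d • y)
          = 2 • (s • (s • y - dInv (N * q) d • y))

theorem lg1HypAtEven_of_lg1HypAt {N q p : ℕ} [NeZero (N * q)] {inv : Bool}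
    (h : LG1HypAt N q p inv) : LG1HypAtEven N q p inv :=
  fun A hA s hs d hd1 hμ y hy _ => h A hA s hs d hd1 hμ y hy

theorem gateEven_of_lg1Hyp {N q p : ℕ} [NeZero (N * q)]
    (h : Fermat.Agent.S43.LG1.Instance.LG1Hyp N q p) : GateEven N q p :=
  fun A hA s hs d hd y hy _ => h A hA s hs d hd y hy

/-- **The even gate in the chief's literal, with the sign `inv = false`.** -/
theorem lg1HypAtEven_false {N q p : ℕ} [NeZero (N * q)] (h : GateEven N q p) :
    LG1HypAtEven N q p false := by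
  intro A hA s hs d hd1 hμ y hy hev
  have hd : IsInertiaDiamond N q s d := ⟨hμ, (isOneModLeft_iff N q d).mp hd1⟩
  have hev' : ∀ d' : (ZMod (N * q))ˣ, (((d' : ZMod (N * q)).val : ℕ) : ZMod N) = 1 →
      d' * d' = 1 → dInv (N * q) d' • y = y := by
    intro d' h1 h2
    rw [← diamond1Bar_eq_dInv]
    exact hev d' ((isOneModLeft_iff N q d').mpr h1) h2
  have h1 := h A hA s hs d hd y hy hev'
  unfold CubicAt
  simp only [Bool.false_eq_true, if_false]
  rw [diamond1Bar_eq_dInv]
  generalize s • y - dInv (N * q) d • y = z at h1 ⊢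
  rw [two_smul] at h1
  have h2 : s • s • z = s • z + s • z - z := by rw [← h1]; abel
  rw [smul_sub, h2]
  abel

/-- `⟨d⟩_*` on the Tate module of `J₁(M)` -/
def diamondTp (p : ℕ) [Fact p.Prime] (M : ℕ) [NeZero M] (d : (ZMod M)ˣ) :
    Module.End ℤ_[p] (Tp p (J1 M)) :=
  Tp.mapEnd (p := p) (J := J1 M) (diamond1Bar M d).toAddMonoidHom

/-- **The even gate on the Tate module**: the cubic kills every `x ∈ T_p J₁(N q)` fixed by the
diamonds of order at most two of the `q`-part. -/
theorem galoisHom_cubic_even {N q p : ℕ} [Fact p.Prime] [NeZero (N * q)]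
    (hG : LG1HypAtEven N q p false) (A : ValuationSubring Kb) (hA : A.LiesOverPrime q)
    (s : Kb ≃ₐ[ℚ] Kb) (hs : s ∈ A.inertiaSubgroupIn ℚ) (d : (ZMod (N * q))ˣ)
    (hd1 : IsOneModLeft N q d) (hμ : ActsOnMuAs N q s d) (x : Tp p (J1 (N * q)))
    (hx : ∀ d' : (ZMod (N * q))ˣ, IsOneModLeft N q d' → d' * d' = 1 →
      diamondTp p (N * q) d' x = x) :
    ((Tp.galoisHom (p := p) (J := J1 (N * q)) (Kb ≃ₐ[ℚ] Kb) s - 1) *
        (Tp.galoisHom (p := p) (J := J1 (N * q)) (Kb ≃ₐ[ℚ] Kb) s - 1) *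
      (Tp.galoisHom (p := p) (J := J1 (N * q)) (Kb ≃ₐ[ℚ] Kb) s - diamondTp p (N * q) d)) x
      = 0 := by
  apply Tp.ext
  intro k
  have hev : IsEvenAt N q (x.1 k) := by
    intro d' h1 h2
    have := congrArg (fun z : Tp p (J1 (N * q)) => z.1 k) (hx d' h1 h2)
    exact this
  have h := hG A hA s hs d hd1 hμ (x.1 k) (Tp.isTorsion_apply x k) hev
  unfold CubicAt at h
  simp only [Bool.false_eq_true, if_false] at h
  simp only [Module.End.mul_apply, LinearMap.sub_apply, Module.End.one_apply, map_sub, diamondTp]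
  simp only [Tp.coe_sub_apply, Tp.coe_galoisHom_apply, Tp.coe_mapEnd_apply, Tp.coe_zero_apply]
  rw [← h]
  simp only [smul_sub]
  abel

end Fermat.Agent.S43.LG1.Even
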