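/-
PROJECT R (row 37 by S43), gate G2* / LG1Hyp (helper4): THE GATE FROM ITS THREE NAMED SEAMS.

* (W) `Fricke/Seam.HasFricke N q` (helper17): the `q`-part Fricke automorphism `w` of `ℚ̄(X₁(N q))`;
* (V) `IsGaussBranch N q A V` : the Gauss branch `V` at the rational cusp over `A ∣ q` (inertia acts
  trivially on its residue field, the diamonds preserve it, it is archimedean, proper, its value
  group is attained on constants, and `j(t^{N q}) ≡ j(t^N)^q`, `j(t^N) ≢ j(t^{N q})^q` modulo its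
  maximal ideal);
* (C) `CoreZPair N q p A V w` : Core-Z for the pair `(V, w⁻¹ V)` at every `p`-power.

`lg1Hyp_of_seams : HasFricke N q → (∀ A ∣ q, ∃ V, IsGaussBranch N q A V ∧ ∀ w, IsFricke N q w →
  CoreZPair N q p A V w) → LG1Hyp N q p`.
-/
import Fermat.Agent.S43.LG1.Instance
import Fermat.Agent.S43.LG1.Fricke.Seam
import Fermat.Agent.S48.B.ES.DiamondUnique

set_option autoImplicit false
set_option linter.unusedSectionVars false

noncomputable section

namespace Fermat.Agent.S43.LG1.OfSeams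

open AlgebraicCurve AlgebraicCurve.SemilinearAut ModularCurve
open Fermat.Agent.S48.B.Defs.Model Fermat.Agent.S48.B.ES.DiamondUnique
open Fermat.Agent.S34.KummerZ Fermat.Agent.S34.Z1Abstract Fermat.Agent.S34.WeakApprox
open Fermat.Agent.S43.LG1.OfFricke Fermat.Agent.S43.LG1.Instance
open Fermat.Agent.S43.LG1.Fricke.Seam

local notation "Kb" => AlgebraicClosure ℚ

attribute [local instance] Fermat.Agent.S43.LG1.Fricke.Seam.instNeZeroMul

variable (N q : ℕ) [NeZero N] [NeZero q]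

/-- the three clauses of `HasFricke`, for one `w` -/
def IsFricke (w : F1Bar (N * q) ≃ₐ[Kb] F1Bar (N * q)) : Prop :=
  (∀ y y' : F1Bar (N * q),
      (y : LaurentSeries Kb) = coeffEmb Kb (qExpand ℚ (N * q) jq) →
      (y' : LaurentSeries Kb) = coeffEmb Kb (qExpand ℚ N jq) → w y = y' ∧ w y' = y) ∧
    (∀ (d : (ZMod (N * q))ˣ) (δ : F1Bar (N * q) ≃ₐ[Kb] F1Bar (N * q)),
      IsDiamondAut (N * q) Kb d δ → IsRPart N q d → ∀ x, w (δ x) = δ.symm (w x)) ∧
    (∀ (σ : Kb ≃ₐ[ℚ] Kb) (d : (ZMod (N * q))ˣ) (δ : F1Bar (N * q) ≃ₐ[Kb] F1Bar (N * q)),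
      IsDiamondAut (N * q) Kb d δ → IsRPart N q d → ActsOnMu N q σ d →
      ∀ x, arithmeticGalois (F1 (N * q)) σ • w x =
        w (δ (arithmeticGalois (F1 (N * q)) σ • x)))

theorem hasFricke_iff : HasFricke N q ↔ ∃ w, IsFricke N q w := Iff.rfl

/-- `j(t^{N q})` -/
def jBig : F1Bar (N * q) := jGen (N * q) Kb (N * q) dvd_rfl

/-- `j(t^N)` -/
def jSmall : F1Bar (N * q) := jGen (N * q) Kb N (Dvd.intro q rfl)

/-- **seam (V)**: the Gauss branch at the rational cusp over `A`. -/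
def IsGaussBranch (A : ValuationSubring Kb) (V : ValuationSubring (F1Bar (N * q))) : Prop :=
  (∀ s ∈ A.inertiaSubgroupIn ℚ, ∀ x ∈ V,
      arithmeticGalois (F1 (N * q)) s • x - x ∈ V.nonunits) ∧
    (∀ (d : (ZMod (N * q))ˣ) (x : F1Bar (N * q)), diamondAut (N * q) Kb d x ∈ V ↔ x ∈ V) ∧
    Arch V ∧ V ≠ ⊤ ∧
    (∀ f : F1Bar (N * q), f ≠ 0 →
      ∃ c : Kb, V.valuation f = V.valuation (algebraMap Kb (F1Bar (N * q)) c)) ∧
    (jBig N q - jSmall N q ^ q ∈ V.nonunits) ∧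
    (jSmall N q - jBig N q ^ q ∉ V.nonunits)

/-- **seam (C)**: Core-Z for the pair `(V, w⁻¹ V)`, for the inertia group of `A`. -/
def CoreZPair (p : ℕ) (A : ValuationSubring Kb) (V : ValuationSubring (F1Bar (N * q)))
    (w : F1Bar (N * q) ≃ₐ[Kb] F1Bar (N * q)) : Prop :=
  ∀ s ∈ A.inertiaSubgroupIn ℚ, ∀ k : ℕ, ∀ u : F1Bar (N * q), Hn (K := Kb) (p ^ k) u →
    IsOneUnit V u → IsOneUnit (pull V w) u →
      ∃ (c : Kb) (h : F1Bar (N * q)), c ≠ 0 ∧ h ≠ 0 ∧
        arithmeticGalois (F1 (N * q)) s • u = algebraMap Kb (F1Bar (N * q)) c * h ^ (p ^ k) * u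

variable {N q}

/-- the two branches are distinct -/
theorem ne_pull {A : ValuationSubring Kb} {V : ValuationSubring (F1Bar (N * q))}
    (hV : IsGaussBranch N q A V) {w : F1Bar (N * q) ≃ₐ[Kb] F1Bar (N * q)}
    (hw : IsFricke N q w) : V ≠ pull V w := by
  intro h
  obtain ⟨-, -, -, -, -, h1, h2⟩ := hV
  obtain ⟨e1, e2⟩ := hw.1 (jBig N q) (jSmall N q) rfl rfl
  apply h2
  have h3 : jBig N q - jSmall N q ^ q ∈ (pull V w).nonunits := by rw [← h]; exact h1
  rw [mem_nonunits_pull, map_sub, map_pow, e1, e2] at h3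
  exact h3

/-- **the gate seam for one inertia element** -/
theorem gateSeam_of_seams {p : ℕ} {A : ValuationSubring Kb} {V : ValuationSubring (F1Bar (N * q))}
    (hV : IsGaussBranch N q A V) {w : F1Bar (N * q) ≃ₐ[Kb] F1Bar (N * q)}
    (hw : IsFricke N q w) (hC : CoreZPair N q p A V w)
    {s : Kb ≃ₐ[ℚ] Kb} (hs : s ∈ A.inertiaSubgroupIn ℚ) {d : (ZMod (N * q))ˣ}
    (hd : IsInertiaDiamond N q s d) : GateSeam (N * q) p s d := by
  have hD : IsDiamondAut (N * q) Kb d (diamondAut (N * q) Kb d) :=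
    Fermat.Agent.S48.B.B1.Main.isDiamondAut_diamondAut (N * q) Kb d
  refine ⟨w, V, hw.2.2 s d _ hD hd.2 hd.1, hw.2.1 d _ hD hd.2, hV.1 s hs, hV.2.1 d, hV.2.2.1,
    hV.2.2.2.1, ne_pull hV hw, hV.2.2.2.2.1, fun k u hu h1 h2 => hC s hs k u hu h1 h2⟩

/-- **THE GATE FROM ITS THREE SEAMS.** -/
theorem lg1Hyp_of_seams {p : ℕ} (hp : p ≠ 0) (hW : HasFricke N q)
    (hVC : ∀ A : ValuationSubring Kb, A.LiesOverPrime q →
      ∃ V : ValuationSubring (F1Bar (N * q)), IsGaussBranch N q A V ∧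
        ∀ w, IsFricke N q w → CoreZPair N q p A V w) :
    LG1Hyp N q p := by
  obtain ⟨w, hw⟩ := hW
  refine lg1Hyp_of_gateSeam hp fun A hA s hs d hd => ?_
  obtain ⟨V, hV, hC⟩ := hVC A hA
  exact gateSeam_of_seams hV hw (hC w hw) hs hd

end Fermat.Agent.S43.LG1.OfSeams
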