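/-
PROJECT R (S43), gate LG1 (helper17 #6069), file `GlueGNodalTw` (helper2): THE GLUING HYPOTHESIS OF
THE NODAL CORE FOR AN INERTIA ELEMENT WHICH ACTS ON THE REDUCTIONS THROUGH AUTOMORPHISMS.

Twisted twin of main's `S34/GlueGNodal.glueG_of_inertia`.  There the automorphism `s` of `FL` acts
TRIVIALLY on both reductions.  For the pair of Gauss branches of `X_H(r)` an inertia element acts on
the residue field of the second branch as the reduced DIAMOND, an automorphism which fixes every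
node.  The proof of `glueG_of_inertia` uses `s` in three places only, all of them inputs of
`GlueG.NodeSetup.eval_eq_of_localGenerator`:

* the stability of the family `𝒬 = {O₁, O₂} ∪ {P : P not over the admissible pair}` under `s`
  (membership only; the admissible pair must be stable under the induced permutations `τ1p`, `τ2p`
  of the places: hypothesis `hAdmτ`);
* `s` preserves the composite ring of every node and the VALUE at the node
  (`map_mem_and_ev_eq_tw`: a `k`-algebra automorphism which maps the valuation ring of a place of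
  degree one onto itself induces the identity on its residue field);
* `lam 𝒬 p f ↦ lam 𝒬 p (s f)`, a consequence of the first.
-/
import Mathlib
import Fermat.Agent.S34.NodalCore
import Fermat.Agent.S34.GlueG
import Fermat.Agent.S34.GlueG.ValueAt
import Fermat.Agent.S34.GlueGNodal

set_option autoImplicit false
set_option linter.unusedSectionVars false
set_option linter.unusedVariables false

noncomputable section

namespace Fermat.Agent.S43.LG1.GlueGNodalTw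

open AlgebraicCurve Fermat.Agent.S24.Ord Fermat.Agent.S34.NodalDefs Fermat.Agent.S34.NodalDisc
  Fermat.Agent.S34.NodalCore Fermat.Agent.S34.GlueG Fermat.Agent.S34.GlueG.ValueAt
open Fermat.Agent.S18.CoreDefs (RiemannGe)
open Fermat.Agent.S18.CoreOrd hiding coe_unit_ne_zero red_unit_ne_zero unitOfRed coe_unitOfRed constO
  coe_constO red_constO isUnit_iff_red_ne_zero exists_div_unit ord_red_nonneg le_ord_red
  ord_red_eq_zero exists_unique_zero

/-! ### The value at a place of degree one under a `k`-automorphism fixing the place -/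

section Value

variable {k : Type*} {Fk : Type*} [Field k] [Field Fk] [Algebra k Fk]

/-- a `k`-automorphism mapping the valuation ring of `Q` onto itself preserves its maximal ideal -/
theorem adicValuation_map_lt_one (Q : Place k Fk) (τ : Fk ≃ₐ[k] Fk)
    (hτQ : ∀ z : Fk, z ∈ Q.toValuationSubring ↔ τ z ∈ Q.toValuationSubring) {z : Fk}
    (hz : Q.adicValuation z < 1) : Q.adicValuation (τ z) < 1 := by
  by_contra hcon
  rw [not_lt] at hcon
  have hzmem : z ∈ Q.toValuationSubring := (mem_iff Q z).mpr hz.le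
  have hτz : τ z ∈ Q.toValuationSubring := (hτQ z).mp hzmem
  have h1 : Q.adicValuation (τ z) = 1 := le_antisymm ((mem_iff Q _).mp hτz) hcon
  have hτz0 : τ z ≠ 0 := by
    intro h0
    rw [h0, map_zero] at h1
    exact zero_ne_one h1
  have hz0 : z ≠ 0 := by
    rintro rfl
    exact hτz0 (map_zero τ)
  have hinv : (τ z)⁻¹ ∈ Q.toValuationSubring := by
    rw [mem_iff, map_inv₀, h1, inv_one]
  have hinv' : τ z⁻¹ ∈ Q.toValuationSubring := by
    rw [map_inv₀]
    exact hinv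
  have hzinv : z⁻¹ ∈ Q.toValuationSubring := (hτQ z⁻¹).mpr hinv'
  have h2 : Q.adicValuation z⁻¹ ≤ 1 := (mem_iff Q _).mp hzinv
  have hvz0 : Q.adicValuation z ≠ 0 := (Valuation.ne_zero_iff _).mpr hz0
  have h3 : Q.adicValuation z * Q.adicValuation z⁻¹ = 1 := by
    rw [← map_mul, mul_inv_cancel₀ hz0, map_one]
  have h4 : Q.adicValuation z * Q.adicValuation z⁻¹ < 1 := by
    calc Q.adicValuation z * Q.adicValuation z⁻¹ ≤ Q.adicValuation z * 1 :=
          mul_le_mul' le_rfl h2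
      _ = Q.adicValuation z := mul_one _
      _ < 1 := hz
  rw [h3] at h4
  exact lt_irrefl _ h4

variable {FL : Type*} [Field FL]
variable (O : ValuationSubring FL) (red : O →+* Fk) (hred : ∀ u : O, red u = 0 ↔ ¬ IsUnit u)
  (Q : Place k Fk)

/-- **invariance of the value at a node** under an automorphism `s` of `FL` acting on the residue
field through a `k`-automorphism `τ` which maps the valuation ring of the node onto itself -/
theorem map_mem_and_ev_eq_tw (hQ : Q.deg = 1) (s : FL ≃+* FL) (τ : Fk ≃ₐ[k] Fk)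
    (hτQ : ∀ z : Fk, z ∈ Q.toValuationSubring ↔ τ z ∈ Q.toValuationSubring)
    (hs : ∀ (y : FL) (h : y ∈ O), ∃ h' : s y ∈ O, red ⟨s y, h'⟩ = τ (red ⟨y, h⟩))
    (y : FL) (hy : y ∈ compVal O red hred Q) :
    s y ∈ compVal O red hred Q ∧
      ev (compVal O red hred Q).toSubring (compEval O red hred Q hQ) (s y) =
        ev (compVal O red hred Q).toSubring (compEval O red hred Q hQ) y := by
  obtain ⟨h', he⟩ := hs y hy.1
  have hm : s y ∈ compVal O red hred Q := ⟨h', by rw [he]; exact (hτQ _).mp hy.2⟩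
  refine ⟨hm, ?_⟩
  rw [ev_of_mem (show s y ∈ (compVal O red hred Q).toSubring from hm),
    ev_of_mem (show y ∈ (compVal O red hred Q).toSubring from hy), compEval_apply, compEval_apply]
  set γ : k := valueAt Q hQ ⟨red ⟨y, hy.1⟩, hy.2⟩ with hγ
  have h1 : Q.adicValuation (red ⟨y, hy.1⟩ - algebraMap k Fk γ) < 1 :=
    (valueAt_eq_iff Q hQ ⟨red ⟨y, hy.1⟩, hy.2⟩ γ).mp rfl
  rw [valueAt_eq_iff]
  show Q.adicValuation (red ⟨s y, hm.1⟩ - algebraMap k Fk γ) < 1
  have h2 := adicValuation_map_lt_one Q τ hτQ h1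
  rw [map_sub, AlgEquiv.commutes] at h2
  have h3 : red ⟨s y, hm.1⟩ = τ (red ⟨y, hy.1⟩) := he
  rw [h3]
  exact h2

end Value

variable {L : Type*} [Field L] {FL : Type*} [Field FL] [Algebra L FL]
variable {k : Type*} [Field k] {F1 : Type*} [Field F1] [Algebra k F1]
  {F2 : Type*} [Field F2] [Algebra k F2]
variable {A : ValuationSubring L} {π : A →+* k} {ι : Type*}

/-- **GlueG for `s f / f`, TWISTED reductions.**  `s` is an automorphism of `FL` which preserves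
both Gauss rings and acts on the two reductions through `k`-algebra automorphisms `τ1`, `τ2` of
the residue function fields which map the valuation ring of every node onto itself; its action
`τ = s⁻¹` on places is compatible with the two partial specialisation maps up to the permutations
`τ1p`, `τ2p` of the generic places, and the admissible pairs are stable under these permutations.
If `f ≡ 1` on both components and `div f = p D` with `deg D = 0`, then the divisor `D'` of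
`(s f / f)^(1/p)` satisfies the gluing hypothesis of the nodal core.
(`τ1 = τ2 = 1`, `τ1p = τ2p = id` is `S34/GlueGNodal.glueG_of_inertia`.) -/
theorem glueG_of_inertia_tw [HasPrincipalDivisors L FL] [Fintype ι] [Nonempty ι]
    (N : GNodalDatum A π FL F1 F2 ι) (hdegL : ∀ P : Place L FL, P.deg = 1)
    (hdeg1 : ∀ e, (N.e1 e).deg = 1) (hdeg2 : ∀ e, (N.e2 e).deg = 1)
    (hadmfin : ∀ S1 S2, N.Adm S1 S2 → S1.Finite ∧ S2.Finite)
    (hπ : Function.Surjective π) (p : ℕ) (hp : p ≠ 0)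
    (x1 : N.R1.O)
    (hunram1 : {Q : Place k F1 | ¬ ∃ γ : k, Q.ord (N.R1.red x1 - algebraMap k F1 γ) = 1}.Finite)
    (x2 : N.R2.O)
    (hunram2 : {Q : Place k F2 | ¬ ∃ γ : k, Q.ord (N.R2.red x2 - algebraMap k F2 γ) = 1}.Finite)
    {g1 m2 : ℕ} (hR : RiemannGe L FL (g1 + m2)) (hG : NodalRigid k F1 F2 N.e2 g1 m2)
    (s : FL ≃+* FL) (τ : Place L FL → Place L FL)
    (hτ : ∀ (P : Place L FL) (y : FL),
      y ∈ (τ P).toValuationSubring ↔ s y ∈ P.toValuationSubring)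
    (τ1 : F1 ≃ₐ[k] F1) (τ2 : F2 ≃ₐ[k] F2)
    (hτ1node : ∀ (e : ι) (z : F1),
      z ∈ (N.e1 e).toValuationSubring ↔ τ1 z ∈ (N.e1 e).toValuationSubring)
    (hτ2node : ∀ (e : ι) (z : F2),
      z ∈ (N.e2 e).toValuationSubring ↔ τ2 z ∈ (N.e2 e).toValuationSubring)
    (hs1 : ∀ (y : FL) (h : y ∈ N.R1.O), ∃ h' : s y ∈ N.R1.O,
      N.R1.red ⟨s y, h'⟩ = τ1 (N.R1.red ⟨y, h⟩))
    (hs1' : ∀ y : FL, s y ∈ N.R1.O → y ∈ N.R1.O)
    (hs2 : ∀ (y : FL) (h : y ∈ N.R2.O), ∃ h' : s y ∈ N.R2.O,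
      N.R2.red ⟨s y, h'⟩ = τ2 (N.R2.red ⟨y, h⟩))
    (hs2' : ∀ y : FL, s y ∈ N.R2.O → y ∈ N.R2.O)
    (τ1p : Place k F1 → Place k F1) (τ2p : Place k F2 → Place k F2)
    (hr1 : ∀ P : Place L FL, N.R1.r (τ P) = (N.R1.r P).map τ1p)
    (hr2 : ∀ P : Place L FL, N.R2.r (τ P) = (N.R2.r P).map τ2p)
    (hAdmτ : ∀ S1 S2, N.Adm S1 S2 →
      (∀ Q : Place k F1, Q ∈ S1 ↔ τ1p Q ∈ S1) ∧ (∀ Q : Place k F2, Q ∈ S2 ↔ τ2p Q ∈ S2))
    (D : Divisor L FL) (hD0 : Divisor.degree D = 0)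
    (f1 : N.R1.Oˣ) (f2 : N.R2.Oˣ) (hf12 : ((f1 : N.R1.O) : FL) = ((f2 : N.R2.O) : FL))
    (hred1 : N.R1.red (f1 : N.R1.O) = 1) (hred2 : N.R2.red (f2 : N.R2.O) = 1)
    (hfD : ∀ P : Place L FL, P.ord ((f1 : N.R1.O) : FL) = p * D P)
    (D' : Divisor L FL)
    (hD' : ∀ P : Place L FL,
      P.ord (s ((f1 : N.R1.O) : FL) / ((f1 : N.R1.O) : FL)) = p * D' P) :
    GlueG N D' := by
  classical
  have : NeZero p := ⟨hp⟩
  have hppos : (0 : ℤ) < p := by exact_mod_cast Nat.pos_of_ne_zero hp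
  -- Step 0: rigid generic places and their lifts, as in `nodal_core`
  set Bad1 : Set (Place k F1) :=
    {Q : Place k F1 | ¬ ∃ γ : k, Q.ord (N.R1.red x1 - algebraMap k F1 γ) = 1} ∪
      {Q : Place k F1 | ∃ P : Place L FL, P.ord ((x1 : N.R1.O) : FL) < 0 ∧ N.R1.r P = some Q} ∪
      (N.R1.good)ᶜ with hBad1
  set Bad2 : Set (Place k F2) :=
    {Q : Place k F2 | ¬ ∃ γ : k, Q.ord (N.R2.red x2 - algebraMap k F2 γ) = 1} ∪
      {Q : Place k F2 | ∃ P : Place L FL, P.ord ((x2 : N.R2.O) : FL) < 0 ∧ N.R2.r P = some Q} ∪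
      (N.R2.good)ᶜ with hBad2
  have hBad1fin : Bad1.Finite :=
    (hunram1.union (finite_image_poles N.R1 _)).union N.finite_compl_good1
  have hBad2fin : Bad2.Finite :=
    (hunram2.union (finite_image_poles N.R2 _)).union N.finite_compl_good2
  obtain ⟨Q1, Q2, hQ1, hQ2, hQ1Bad, hQ2Bad, hrig1, hrig2⟩ := hG Bad1 hBad1fin Bad2 hBad2fin
  have hQ1g : ∀ i, Q1 i ∈ N.R1.good := by
    intro i
    by_contra hcon
    exact hQ1Bad i (Or.inr hcon)
  have hQ2g : ∀ j, Q2 j ∈ N.R2.good := by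
    intro j
    by_contra hcon
    exact hQ2Bad j (Or.inr hcon)
  have hpar1 : ∀ i, ∃ (T : N.R1.O) (P0 : Place L FL), (Q1 i).ord (N.R1.red T) = 1 ∧
      (∀ P : Place L FL, N.R1.r P = some (Q1 i) → 0 ≤ P.ord ((T : N.R1.O) : FL)) ∧
      N.R1.r P0 = some (Q1 i) ∧ 0 < P0.ord ((T : N.R1.O) : FL) := by
    intro i
    refine exists_param N.R1 hπ x1 (Q1 i) (hQ1g i) ?_ ?_
    · by_contra hcon
      exact hQ1Bad i (Or.inl (Or.inl hcon))
    · intro P hP
      by_contra hcon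
      rw [not_le] at hcon
      exact hQ1Bad i (Or.inl (Or.inr ⟨P, hcon, hP⟩))
  have hpar2 : ∀ j, ∃ (T : N.R2.O) (P0 : Place L FL), (Q2 j).ord (N.R2.red T) = 1 ∧
      (∀ P : Place L FL, N.R2.r P = some (Q2 j) → 0 ≤ P.ord ((T : N.R2.O) : FL)) ∧
      N.R2.r P0 = some (Q2 j) ∧ 0 < P0.ord ((T : N.R2.O) : FL) := by
    intro j
    refine exists_param N.R2 hπ x2 (Q2 j) (hQ2g j) ?_ ?_
    · by_contra hcon
      exact hQ2Bad j (Or.inl (Or.inl hcon))
    · intro P hP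
      by_contra hcon
      rw [not_le] at hcon
      exact hQ2Bad j (Or.inl (Or.inr ⟨P, hcon, hP⟩))
  choose T1 P01 hT1Q hT1reg hP01 hT10 using hpar1
  choose T2 P02 hT2Q hT2reg hP02 hT20 using hpar2
  -- Step 1: the local generator
  obtain ⟨u1, u2, γ, hγ, hu12, hu1red, huD⟩ :=
    Fermat.Agent.S34.GlueGNodal.exists_localGenerator N hdegL p hp hR Q1 Q2 hQ1g hQ2g hrig1 hrig2 P01 P02 hP01 hP02 D hD0
      f1 f2 hf12 hred1 hred2 hfD
  -- Step 2: the data of `GlueG`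
  intro S1 S2 hadm y1 y2 hy12 hy0 hpole e
  obtain ⟨hS1fin, hS2fin⟩ := hadmfin S1 S2 hadm
  obtain ⟨hS1g, hS2g⟩ := N.adm_subset_good S1 S2 hadm
  obtain ⟨T1', T2', hadm', hT1', hT2'⟩ := N.exists_adm (S1 ∪ Set.range Q1) (S2 ∪ Set.range Q2)
    (hS1fin.union (Set.finite_range _)) (hS2fin.union (Set.finite_range _))
    (Set.union_subset hS1g (by rintro _ ⟨i, rfl⟩; exact hQ1g i))
    (Set.union_subset hS2g (by rintro _ ⟨j, rfl⟩; exact hQ2g j))
  -- the non-admissible places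
  set isOver : Place L FL → Prop := fun P =>
    (∃ Q ∈ T1', N.R1.r P = some Q) ∨ (∃ Q ∈ T2', N.R2.r P = some Q) with hisOver
  set 𝒬 : Set (ValuationSubring FL) :=
    {V | V = N.R1.O ∨ V = N.R2.O ∨ ∃ P : Place L FL, ¬ isOver P ∧ V = P.toValuationSubring} with h𝒬
  have hO1 : N.R1.O ∈ 𝒬 := Or.inl rfl
  have hO2 : N.R2.O ∈ 𝒬 := Or.inr (Or.inl rfl)
  have hPl : ∀ P : Place L FL, ¬ isOver P → P.toValuationSubring ∈ 𝒬 :=
    fun P hP => Or.inr (Or.inr ⟨P, hP, rfl⟩)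
  -- membership in a place from the order
  have hmemP : ∀ (P : Place L FL) (z : FL), z ≠ 0 → 0 ≤ P.ord z → z ∈ P.toValuationSubring :=
    fun P z hz h => (mem_iff P z).mpr ((ord_nonneg_iff P hz).mp h)
  -- the node
  set V1 := compVal N.R1.O N.R1.red N.R1.red_eq_zero_iff (N.e1 e) with hV1
  set V2 := compVal N.R2.O N.R2.red N.R2.red_eq_zero_iff (N.e2 e) with hV2
  set E1 := compEval N.R1.O N.R1.red N.R1.red_eq_zero_iff (N.e1 e) (hdeg1 e) with hE1
  set E2 := compEval N.R2.O N.R2.red N.R2.red_eq_zero_iff (N.e2 e) (hdeg2 e) with hE2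
  have dict1 : ∀ (y : FL) (hy : y ∈ N.R1.O) (c : k),
      (y ∈ V1 ∧ ev V1.toSubring E1 y = c) ↔ HasValue (N.e1 e) (N.R1.red ⟨y, hy⟩) c :=
    fun y hy c => mem_and_ev_eq_iff N.R1.O N.R1.red N.R1.red_eq_zero_iff (N.e1 e) (hdeg1 e) hy c
  have dict2 : ∀ (y : FL) (hy : y ∈ N.R2.O) (c : k),
      (y ∈ V2 ∧ ev V2.toSubring E2 y = c) ↔ HasValue (N.e2 e) (N.R2.red ⟨y, hy⟩) c :=
    fun y hy c => mem_and_ev_eq_iff N.R2.O N.R2.red N.R2.red_eq_zero_iff (N.e2 e) (hdeg2 e) hy c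
  -- (G2) + (G3) at the node
  have hglue : ∀ h ∈ ringB 𝒬, h ∈ V1 ∧ h ∈ V2 ∧ ev V1.toSubring E1 h = ev V2.toSubring E2 h := by
    intro h hh
    have h1 : h ∈ N.R1.O := hh _ hO1
    have h2 : h ∈ N.R2.O := hh _ hO2
    have hpoles : ∀ P : Place L FL, P.ord ((⟨h, h1⟩ : N.R1.O) : FL) < 0 → isOver P := by
      intro P hP
      by_contra hcon
      have hm : h ∈ P.toValuationSubring := hh _ (hPl P hcon)
      have h0 : h ≠ 0 := by
        rintro rfl
        simp at hP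
      have := (ord_nonneg_iff P h0).mpr ((mem_iff P h).mp hm)
      exact absurd hP (not_lt.mpr this)
    obtain ⟨-, -, hgl⟩ := N.pcg T1' T2' hadm' ⟨h, h1⟩ ⟨h, h2⟩ rfl hpoles
    obtain ⟨c, hc1, hc2⟩ := hgl e
    obtain ⟨m1, v1⟩ := (dict1 h h1 c).mpr hc1
    obtain ⟨m2, v2⟩ := (dict2 h h2 c).mpr hc2
    exact ⟨m1, m2, v1.trans v2.symm⟩
  have hchi : ∀ t : k, ∃ h ∈ ringB 𝒬, ev V1.toSubring E1 h = t := by
    intro t
    obtain ⟨a, rfl⟩ := hπ t
    refine ⟨algebraMap L FL (a : L), ?_, ?_⟩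
    · rintro Q (rfl | rfl | ⟨P, -, rfl⟩)
      · exact N.R1.algebraMap_mem a
      · exact N.R2.algebraMap_mem a
      · exact P.algebraMap_mem' _
    · exact ((dict1 _ (N.R1.algebraMap_mem a) (π a)).mpr (Or.inl (N.R1.red_algebraMap a))).2
  have S : NodeSetup p V1.toSubring V2.toSubring E1 E2 (ringB 𝒬) (lam 𝒬 p) :=
    nodeSetup_lam 𝒬 p V1 V2 E1 E2
      (inv_mem_of_ev_ne_zero N.R1.O N.R1.red N.R1.red_eq_zero_iff (N.e1 e) (hdeg1 e))
      (inv_mem_of_ev_ne_zero N.R2.O N.R2.red N.R2.red_eq_zero_iff (N.e2 e) (hdeg2 e))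
      hglue hchi
  -- the automorphism
  have hs𝒬 : ∀ Q ∈ 𝒬, Q.comap (s : FL →+* FL) ∈ 𝒬 := by
    rintro Q (rfl | rfl | ⟨P, hP, rfl⟩)
    · have : N.R1.O.comap (s : FL →+* FL) = N.R1.O := by
        ext y
        rw [ValuationSubring.mem_comap]
        exact ⟨fun h => hs1' y h, fun h => (hs1 y h).1⟩
      rw [this]
      exact hO1
    · have : N.R2.O.comap (s : FL →+* FL) = N.R2.O := by
        ext y
        rw [ValuationSubring.mem_comap]
        exact ⟨fun h => hs2' y h, fun h => (hs2 y h).1⟩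
      rw [this]
      exact hO2
    · have : P.toValuationSubring.comap (s : FL →+* FL) = (τ P).toValuationSubring := by
        ext y
        rw [ValuationSubring.mem_comap]
        exact (hτ P y).symm
      rw [this]
      refine hPl (τ P) ?_
      rintro (⟨Q, hQ, hQr⟩ | ⟨Q, hQ, hQr⟩)
      · rw [hr1, Option.map_eq_some_iff] at hQr
        obtain ⟨Q0, hQ0, rfl⟩ := hQr
        exact hP (Or.inl ⟨Q0, ((hAdmτ T1' T2' hadm').1 Q0).mpr hQ, hQ0⟩)
      · rw [hr2, Option.map_eq_some_iff] at hQr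
        obtain ⟨Q0, hQ0, rfl⟩ := hQr
        exact hP (Or.inr ⟨Q0, ((hAdmτ T1' T2' hadm').2 Q0).mpr hQ, hQ0⟩)
  have hsV1 : ∀ y ∈ V1.toSubring, s y ∈ V1.toSubring ∧
      ev V1.toSubring E1 (s y) = ev V1.toSubring E1 y := fun y hy =>
    map_mem_and_ev_eq_tw N.R1.O N.R1.red N.R1.red_eq_zero_iff (N.e1 e) (hdeg1 e) s τ1
      (hτ1node e) hs1 y hy
  have hsV2 : ∀ y ∈ V2.toSubring, s y ∈ V2.toSubring ∧
      ev V2.toSubring E2 (s y) = ev V2.toSubring E2 y := fun y hy =>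
    map_mem_and_ev_eq_tw N.R2.O N.R2.red N.R2.red_eq_zero_iff (N.e2 e) (hdeg2 e) s τ2
      (hτ2node e) hs2 y hy
  have hsL : ∀ f y, y ∈ lam 𝒬 p f → s y ∈ lam 𝒬 p (s f) := fun f y hy =>
    map_mem_lam s hs𝒬 hy
  -- the function `f`
  set f : FL := ((f1 : N.R1.O) : FL) with hf
  have hf1mem : f ∈ N.R1.O := (f1 : N.R1.O).2
  have hf2mem : f ∈ N.R2.O := by rw [hf12]; exact (f2 : N.R2.O).2
  have hf0 : f ≠ 0 := coe_unit_ne_zero N.R1.toBranch f1
  have hfV1 : f ∈ V1 ∧ ev V1.toSubring E1 f = 1 := by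
    refine (dict1 f hf1mem 1).mpr (Or.inl ?_)
    rw [map_one]
    exact hred1
  have hfV2 : f ∈ V2 ∧ ev V2.toSubring E2 f = 1 := by
    refine (dict2 f hf2mem 1).mpr (Or.inl ?_)
    rw [map_one]
    have : (⟨f, hf2mem⟩ : N.R2.O) = (f2 : N.R2.O) := Subtype.ext hf12
    rw [this]
    exact hred2
  -- `B = ∑ P01 + ∑ P02` vanishes at the non-admissible places
  have hBzero : ∀ P : Place L FL, ¬ isOver P →
      ((∑ i, Finsupp.single (P01 i) (1 : ℤ)) + ∑ j, Finsupp.single (P02 j) (1 : ℤ)) P = 0 := by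
    intro P hP
    rw [Finsupp.add_apply, sum_single_apply_of_notMem' P01 P, sum_single_apply_of_notMem' P02 P,
      add_zero]
    · intro j hj
      exact hP (Or.inr ⟨Q2 j, hT2' (Or.inr ⟨j, rfl⟩), by rw [← hj]; exact hP02 j⟩)
    · intro i hi
      exact hP (Or.inl ⟨Q1 i, hT1' (Or.inr ⟨i, rfl⟩), by rw [← hi]; exact hP01 i⟩)
  -- the local generator lies in `lam f`
  set w : FL := ((u1 : N.R1.O) : FL) with hw
  have hw0 : w ≠ 0 := coe_unit_ne_zero N.R1.toBranch u1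
  have hw1mem : w ∈ N.R1.O := (u1 : N.R1.O).2
  have hw2mem : w ∈ N.R2.O := by rw [hu12]; exact (u2 : N.R2.O).2
  have hwlam : w ∈ lam 𝒬 p f := by
    rintro Q (rfl | rfl | ⟨P, hP, rfl⟩)
    · exact N.R1.O.mul_mem _ _ (N.R1.O.pow_mem hw1mem p) hf1mem
    · exact N.R2.O.mul_mem _ _ (N.R2.O.pow_mem hw2mem p) hf2mem
    · refine hmemP P _ (mul_ne_zero (pow_ne_zero _ hw0) hf0) ?_
      rw [P.ord_mul (pow_ne_zero _ hw0) hf0, ord_pow, hfD]
      have h1 := huD P
      rw [hBzero P hP, add_zero] at h1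
      nlinarith
  have hgen : ∃ y₁ ∈ lam 𝒬 p f, ev V1.toSubring E1 y₁ ≠ 0 := by
    refine ⟨w, hwlam, ?_⟩
    rw [((dict1 w hw1mem γ).mpr (Or.inl hu1red)).2]
    exact hγ
  -- the given function lies in `lam (s f / f)`
  set y : FL := ((y1 : N.R1.O) : FL) with hy
  have hy1mem : y ∈ N.R1.O := y1.2
  have hy2mem : y ∈ N.R2.O := by rw [hy12]; exact y2.2
  have hsf0 : s f ≠ 0 := (map_ne_zero_iff s s.injective).mpr hf0
  have hfinv1 : f⁻¹ ∈ N.R1.O := by
    rw [hf, ← coe_inv_unit N.R1.toBranch f1]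
    exact ((f1⁻¹ : N.R1.Oˣ) : N.R1.O).2
  have hfinv2 : f⁻¹ ∈ N.R2.O := by
    rw [hf12, ← coe_inv_unit N.R2.toBranch f2]
    exact ((f2⁻¹ : N.R2.Oˣ) : N.R2.O).2
  have hylam : y ∈ lam 𝒬 p (s f / f) := by
    rintro Q (rfl | rfl | ⟨P, hP, rfl⟩)
    · rw [div_eq_mul_inv]
      exact N.R1.O.mul_mem _ _ (N.R1.O.pow_mem hy1mem p)
        (N.R1.O.mul_mem _ _ (hs1 f hf1mem).1 hfinv1)
    · rw [div_eq_mul_inv]
      exact N.R2.O.mul_mem _ _ (N.R2.O.pow_mem hy2mem p)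
        (N.R2.O.mul_mem _ _ (hs2 f hf2mem).1 hfinv2)
    · have hq0 : s f / f ≠ 0 := div_ne_zero hsf0 hf0
      refine hmemP P _ (mul_ne_zero (pow_ne_zero _ hy0) hq0) ?_
      rw [P.ord_mul (pow_ne_zero _ hy0) hq0, ord_pow, hD']
      have h1 : ¬ (P.ord y + D' P < 0) := by
        intro hcon
        rcases hpole P hcon with ⟨Q, hQ, hQr⟩ | ⟨Q, hQ, hQr⟩
        · exact hP (Or.inl ⟨Q, hT1' (Or.inl hQ), hQr⟩)
        · exact hP (Or.inr ⟨Q, hT2' (Or.inl hQ), hQr⟩)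
      rw [not_lt] at h1
      nlinarith
  -- conclusion
  obtain ⟨m1, m2, hval⟩ := S.eval_eq_of_localGenerator hp s hsV1 hsV2 hsL hfV1.1 hfV2.1 hfV1.2
    hfV2.2 hgen hylam
  refine ⟨ev V1.toSubring E1 y, ?_, ?_⟩
  · exact (dict1 y hy1mem _).mp ⟨m1, rfl⟩
  · have h2 := (dict2 y hy2mem _).mp ⟨m2, hval.symm⟩
    have : (⟨y, hy2mem⟩ : N.R2.O) = y2 := Subtype.ext hy12
    rw [this] at h2
    exact h2

end Fermat.Agent.S43.LG1.GlueGNodalTw

end
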