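/-
PROJECT R (S43), gate LG1 (helper17 #6069), file `CoreZOfInertiaTw` (helper2): (Core-Z) IN DIVISOR
LANGUAGE FOR AN ABSTRACT NODAL DATUM AND AN INERTIA ELEMENT ACTING ON THE TWO REDUCTIONS THROUGH
AUTOMORPHISMS.

Twisted twin of main's `S34/CoreZOfNodal.principal_of_nodal` + `S34/CoreZOfInertia
.principal_of_inertia`.  `g` is a semilinear automorphism of `FL / L` which preserves the two Gauss
rings and acts on the two residue function fields through `k`-algebra automorphisms `τ1`, `τ2`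
mapping the valuation ring of every node onto itself (for the pair of Gauss branches of `X_H(r)`:
`τ1 = 1`, `τ2` = the reduced diamond).  For `u` a one-unit of both Gauss rings with `div u = n D`,
`deg D = 0`, `n` invertible in `k`: `g • D - D` is principal.

The only use of the action on the reductions in `principal_of_nodal` is `red (g u) = 1` for the
ONE-UNIT `u`, which survives the twist (`τ 1 = 1`); the gluing hypothesis is
`GlueGNodalTw.glueG_of_inertia_tw`.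
-/
import Fermat.Agent.S34.CoreZOfNodal
import Fermat.Agent.S34.CoreZOfInertia
import Fermat.Agent.S43.LG1.GlueGNodalTw

set_option autoImplicit false
set_option linter.unusedSectionVars false

noncomputable section

namespace Fermat.Agent.S43.LG1.CoreZOfInertiaTw

open AlgebraicCurve Fermat.Agent.S34.NodalDefs Fermat.Agent.S34.NodalCore
open Fermat.Agent.S18.CoreDefs (RiemannGe)
open Fermat.Agent.S34.KummerZ Fermat.Agent.S34.CoreZOfPrincipal Fermat.Agent.S34.CoreZOfNodal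

variable {L : Type*} [Field L] {k : Type*} [Field k]
variable {A : ValuationSubring L} {π : A →+* k}
variable {FL : Type*} [Field FL] [Algebra L FL]
variable {Fk : Type*} [Field Fk] [Algebra k Fk]

/-- **The quotient `g u / u` as a one-unit of a branch**, from `red (g u) = 1` alone. -/
theorem exists_unit_quotient_of_red (R : Branch A π FL Fk) (g : SemilinearAut L FL)
    {u : FL} (hu : u ∈ R.O) (hred : R.red ⟨u, hu⟩ = 1)
    (hgu : g • u ∈ R.O) (hgred : R.red ⟨g • u, hgu⟩ = 1) :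
    ∃ f : R.Oˣ, ((f : R.O) : FL) = g • u / u ∧ R.red (f : R.O) = 1 := by
  have h1 : IsUnit (⟨u, hu⟩ : R.O) := isUnit_of_red_eq_one R _ hred
  have h2 : IsUnit (⟨g • u, hgu⟩ : R.O) := isUnit_of_red_eq_one R _ hgred
  obtain ⟨v1, hv1⟩ := h1
  obtain ⟨v2, hv2⟩ := h2
  refine ⟨v2 * v1⁻¹, ?_, ?_⟩
  · have e1 : ((v1 : R.O) : FL) = u := by rw [hv1]
    have e2 : ((v2 : R.O) : FL) = g • u := by rw [hv2]
    have hu0 : u ≠ 0 := by
      rintro rfl
      have hz : (⟨0, hu⟩ : R.O) = 0 := rfl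
      rw [hz, map_zero] at hred
      exact zero_ne_one hred
    have hinv : ((↑(v1⁻¹) : R.O) : FL) = u⁻¹ := by
      have hm : ((v1 : R.O) : FL) * ((↑(v1⁻¹) : R.O) : FL) = 1 := by
        have h0 : ((v1 : R.O) * (↑(v1⁻¹) : R.O) : R.O) = 1 := Units.mul_inv v1
        have h1 := congrArg (fun z : R.O => (z : FL)) h0
        exact h1
      rw [e1] at hm
      exact eq_inv_of_mul_eq_one_right hm
    rw [Units.val_mul, div_eq_mul_inv]
    show ((v2 : R.O) : FL) * ((↑(v1⁻¹) : R.O) : FL) = g • u * u⁻¹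
    rw [e2, hinv]
  · rw [Units.val_mul, map_mul, hv2, hgred, one_mul]
    have hm : R.red (v1 : R.O) * R.red (↑(v1⁻¹) : R.O) = 1 := by
      rw [← map_mul, Units.mul_inv, map_one]
    rw [hv1, hred, one_mul] at hm
    exact hm

variable {F1 : Type*} [Field F1] [Algebra k F1] {F2 : Type*} [Field F2] [Algebra k F2]
variable {ι : Type*}

/-- **Principal-ness of `g D - D` from the nodal core**, from `red_i (g u) = 1` alone. -/
theorem principal_of_nodal_of_red [HasPrincipalDivisors L FL] [HasPrincipalDivisors k F1]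
    [HasPrincipalDivisors k F2] [Fintype ι] [Nonempty ι]
    (N : GNodalDatum A π FL F1 F2 ι) (hdegL : ∀ P : Place L FL, P.deg = 1)
    (hπ : Function.Surjective π) (n : ℕ) (hnk : (n : k) ≠ 0)
    (x1 : N.R1.O)
    (hunram1 : {Q : Place k F1 | ¬ ∃ γ : k, Q.ord (N.R1.red x1 - algebraMap k F1 γ) = 1}.Finite)
    (x2 : N.R2.O)
    (hunram2 : {Q : Place k F2 | ¬ ∃ γ : k, Q.ord (N.R2.red x2 - algebraMap k F2 γ) = 1}.Finite)
    {g1 m2 : ℕ} (hR : RiemannGe L FL (g1 + m2)) (hG : NodalRigid k F1 F2 N.e2 g1 m2)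
    (Pstar : Place L FL) (Qstar : Place k F1) (hQstar : Qstar ∈ N.R1.good)
    (hstar : N.R1.r Pstar = some Qstar)
    (g : SemilinearAut L FL)
    {u : FL} (hu1 : u ∈ N.R1.O) (hu2 : u ∈ N.R2.O)
    (hred1 : N.R1.red ⟨u, hu1⟩ = 1) (hred2 : N.R2.red ⟨u, hu2⟩ = 1)
    (hgu1 : ∃ h : g • u ∈ N.R1.O, N.R1.red ⟨g • u, h⟩ = 1)
    (hgu2 : ∃ h : g • u ∈ N.R2.O, N.R2.red ⟨g • u, h⟩ = 1)
    (D : Divisor L FL) (hD : ∀ P : Place L FL, P.ord u = n * D P)
    (hglue : GlueG N (g • D - D)) :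
    g • D - D ∈ Divisor.principal (K := L) (F := FL) := by
  obtain ⟨hg1m, hg1r⟩ := hgu1
  obtain ⟨hg2m, hg2r⟩ := hgu2
  obtain ⟨f1, hf1, hf1red⟩ := exists_unit_quotient_of_red N.R1.toBranch g hu1 hred1 hg1m hg1r
  obtain ⟨f2, hf2, hf2red⟩ := exists_unit_quotient_of_red N.R2.toBranch g hu2 hred2 hg2m hg2r
  have hu0 : u ≠ 0 := by
    rintro rfl
    have hz : (⟨0, hu1⟩ : N.R1.O) = 0 := rfl
    rw [hz, map_zero] at hred1
    exact zero_ne_one hred1
  have hgu : g • u ≠ 0 := by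
    intro h0
    apply hu0
    have := congrArg (fun x => g⁻¹ • x) h0
    simpa using this
  refine nodal_core N hdegL hπ n hnk x1 hunram1 x2 hunram2 hR hG Pstar Qstar hQstar hstar
    (g • D - D) (degree_smul_sub g D) f1 f2 (hf1.trans hf2.symm) hf1red hf2red (fun P => ?_) hglue
  show P.ord ((f1 : N.R1.O) : FL) = n * (g • D - D) P
  rw [hf1, ord_div' P hgu hu0, ord_smul_eq, hD, hD, Finsupp.sub_apply,
    SemilinearAut.divisor_smul_apply]
  ring

/-- **(Core-Z) in divisor language, abstract form, TWISTED reductions.** -/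
theorem principal_of_inertia_tw [HasPrincipalDivisors L FL] [HasPrincipalDivisors k F1]
    [HasPrincipalDivisors k F2] [Fintype ι] [Nonempty ι]
    (N : GNodalDatum A π FL F1 F2 ι) (hdegL : ∀ P : Place L FL, P.deg = 1)
    (hdeg1 : ∀ e, (N.e1 e).deg = 1) (hdeg2 : ∀ e, (N.e2 e).deg = 1)
    (hadmfin : ∀ S1 S2, N.Adm S1 S2 → S1.Finite ∧ S2.Finite)
    (hπ : Function.Surjective π) (n : ℕ) (hnk : (n : k) ≠ 0)
    (x1 : N.R1.O)
    (hunram1 : {Q : Place k F1 | ¬ ∃ γ : k, Q.ord (N.R1.red x1 - algebraMap k F1 γ) = 1}.Finite)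
    (x2 : N.R2.O)
    (hunram2 : {Q : Place k F2 | ¬ ∃ γ : k, Q.ord (N.R2.red x2 - algebraMap k F2 γ) = 1}.Finite)
    {g1 m2 : ℕ} (hR : RiemannGe L FL (g1 + m2)) (hG : NodalRigid k F1 F2 N.e2 g1 m2)
    (Pstar : Place L FL) (Qstar : Place k F1) (hQstar : Qstar ∈ N.R1.good)
    (hstar : N.R1.r Pstar = some Qstar)
    (g : SemilinearAut L FL)
    (τ1 : F1 ≃ₐ[k] F1) (τ2 : F2 ≃ₐ[k] F2)
    (hτ1node : ∀ (e : ι) (z : F1),
      z ∈ (N.e1 e).toValuationSubring ↔ τ1 z ∈ (N.e1 e).toValuationSubring)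
    (hτ2node : ∀ (e : ι) (z : F2),
      z ∈ (N.e2 e).toValuationSubring ↔ τ2 z ∈ (N.e2 e).toValuationSubring)
    (hg1 : ∀ y : N.R1.O, ∃ h : g • ((y : N.R1.O) : FL) ∈ N.R1.O,
      N.R1.red ⟨_, h⟩ = τ1 (N.R1.red y))
    (hg1' : ∀ y : FL, g • y ∈ N.R1.O → y ∈ N.R1.O)
    (hg2 : ∀ y : N.R2.O, ∃ h : g • ((y : N.R2.O) : FL) ∈ N.R2.O,
      N.R2.red ⟨_, h⟩ = τ2 (N.R2.red y))
    (hg2' : ∀ y : FL, g • y ∈ N.R2.O → y ∈ N.R2.O)
    (τ1p : Place k F1 → Place k F1) (τ2p : Place k F2 → Place k F2)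
    (hr1 : ∀ P : Place L FL, N.R1.r (g⁻¹ • P) = (N.R1.r P).map τ1p)
    (hr2 : ∀ P : Place L FL, N.R2.r (g⁻¹ • P) = (N.R2.r P).map τ2p)
    (hAdmτ : ∀ S1 S2, N.Adm S1 S2 →
      (∀ Q : Place k F1, Q ∈ S1 ↔ τ1p Q ∈ S1) ∧ (∀ Q : Place k F2, Q ∈ S2 ↔ τ2p Q ∈ S2))
    {u : FL} (hu1 : u ∈ N.R1.O) (hu2 : u ∈ N.R2.O)
    (hred1 : N.R1.red ⟨u, hu1⟩ = 1) (hred2 : N.R2.red ⟨u, hu2⟩ = 1)
    (D : Divisor L FL) (hD0 : Divisor.degree D = 0) (hD : ∀ P : Place L FL, P.ord u = n * D P) :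
    g • D - D ∈ Divisor.principal (K := L) (F := FL) := by
  have hn : n ≠ 0 := by
    rintro rfl
    exact hnk (by simp)
  have hu0 : u ≠ 0 := by
    rintro rfl
    have hz : (⟨0, hu1⟩ : N.R1.O) = 0 := rfl
    rw [hz, map_zero] at hred1
    exact zero_ne_one hred1
  have hgu : g • u ≠ 0 := by
    intro h0
    apply hu0
    have := congrArg (fun x => g⁻¹ • x) h0
    simpa using this
  -- `u` as a unit of both branches
  obtain ⟨v1, hv1⟩ := isUnit_of_red_eq_one N.R1.toBranch ⟨u, hu1⟩ hred1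
  obtain ⟨v2, hv2⟩ := isUnit_of_red_eq_one N.R2.toBranch ⟨u, hu2⟩ hred2
  have e1 : ((v1 : N.R1.O) : FL) = u := by rw [hv1]
  have e2 : ((v2 : N.R2.O) : FL) = u := by rw [hv2]
  -- `red_i (g u) = τ_i 1 = 1`
  have hgu1 : ∃ h : g • u ∈ N.R1.O, N.R1.red ⟨g • u, h⟩ = 1 := by
    obtain ⟨h, hr⟩ := hg1 ⟨u, hu1⟩
    exact ⟨h, by rw [hr, hred1, map_one]⟩
  have hgu2 : ∃ h : g • u ∈ N.R2.O, N.R2.red ⟨g • u, h⟩ = 1 := by
    obtain ⟨h, hr⟩ := hg2 ⟨u, hu2⟩
    exact ⟨h, by rw [hr, hred2, map_one]⟩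
  refine principal_of_nodal_of_red N hdegL hπ n hnk x1 hunram1 x2 hunram2 hR hG Pstar Qstar hQstar
    hstar g hu1 hu2 hred1 hred2 hgu1 hgu2 D hD ?_
  refine Fermat.Agent.S43.LG1.GlueGNodalTw.glueG_of_inertia_tw N hdegL hdeg1 hdeg2 hadmfin hπ n hn
    x1 hunram1 x2 hunram2 hR hG (SemilinearAut.toRingAut g) (fun P => g⁻¹ • P)
    (fun P y => Fermat.Agent.S34.CoreZOfInertia.mem_inv_smul_place_iff g P y)
    τ1 τ2 hτ1node hτ2node
    (fun y h => hg1 ⟨y, h⟩) hg1' (fun y h => hg2 ⟨y, h⟩) hg2'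
    τ1p τ2p hr1 hr2 hAdmτ
    D hD0 v1 v2 (e1.trans e2.symm) (by rw [hv1]; exact hred1) (by rw [hv2]; exact hred2)
    (fun P => by rw [e1]; exact hD P) (g • D - D) (fun P => ?_)
  rw [e1]
  show P.ord (g • u / u) = n * (g • D - D) P
  rw [ord_div' P hgu hu0, ord_smul_eq, hD, hD, Finsupp.sub_apply,
    SemilinearAut.divisor_smul_apply]
  ring

end Fermat.Agent.S43.LG1.CoreZOfInertiaTw

end
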