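/-
PROJECT R (row 37 by S43), gate G2* / LG1Hyp, consumer algebra (helper4), Mathlib only.

A `2 × 2` matrix `R` over a commutative ring with `det R = δ` (a unit) which satisfies the CUBIC
relation `(R - 1)² (R - δ) = 0` has `t ^ 3 = 0` for `t = tr R - 1 - δ`; over a reduced ring its
characteristic polynomial is `(X - 1)(X - δ)`.  (This is how the operator identity of the gate,
`(s - 1)² (s - ⟨d_s⟩⁻¹) = 0`, together with `det ρ(s) = ⟨d_s⟩⁻¹`, pins the inertial type
`{1, ψ(d_s)⁻¹}` of every eigen-quotient.)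
-/
import Mathlib

set_option autoImplicit false

namespace Fermat.Agent.S43.LG1.Char2

open Matrix Polynomial

variable {T : Type*} [CommRing T]

/-- the defect of the trace -/
def defect (R : Matrix (Fin 2) (Fin 2) T) (δ : T) : T := R.trace - 1 - δ

/-- the cofactor `(tr R - 1) R - δ` -/
def cof (R : Matrix (Fin 2) (Fin 2) T) (δ : T) : Matrix (Fin 2) (Fin 2) T :=
  (R.trace - 1) • R - δ • (1 : Matrix (Fin 2) (Fin 2) T)

/-- **Cayley-Hamilton form of the cubic**: `(R - 1)² (R - δ) = t • ((tr R - 1) R - δ)`. -/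
theorem cube_eq_smul (R : Matrix (Fin 2) (Fin 2) T) (δ : T) (hdet : R.det = δ) :
    (R - 1) * (R - 1) * (R - δ • (1 : Matrix (Fin 2) (Fin 2) T)) = defect R δ • cof R δ := by
  subst hdet
  ext i j
  fin_cases i <;> fin_cases j <;>
    simp [defect, cof, Matrix.mul_apply, Fin.sum_univ_two, trace_fin_two, det_fin_two,
      Matrix.one_apply, Matrix.sub_apply, Matrix.smul_apply] <;>
    ring

/-- `det ((tr R - 1) R - δ) = - δ t` -/
theorem det_cof (R : Matrix (Fin 2) (Fin 2) T) (δ : T) (hdet : R.det = δ) :
    (cof R δ).det = - (δ * defect R δ) := by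
  subst hdet
  simp [defect, cof, trace_fin_two, det_fin_two, Matrix.sub_apply, Matrix.smul_apply]
  ring

/-- **`t ^ 3 = 0`**: the trace of a `2 × 2` matrix of unit determinant `δ` killed by
`(X - 1)² (X - δ)` is `1 + δ` up to a nilpotent of order three. -/
theorem defect_pow_three (R : Matrix (Fin 2) (Fin 2) T) (δ : T) (hδ : IsUnit δ)
    (hdet : R.det = δ)
    (hcube : (R - 1) * (R - 1) * (R - δ • (1 : Matrix (Fin 2) (Fin 2) T)) = 0) :
    defect R δ ^ 3 = 0 := by
  have h1 : defect R δ • cof R δ = 0 := by rw [← cube_eq_smul R δ hdet, hcube]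
  have h2 : (defect R δ • cof R δ).det = 0 := by rw [h1, det_zero]
  rw [det_smul, Fintype.card_fin, det_cof R δ hdet] at h2
  have h3 : δ * defect R δ ^ 3 = 0 := by linear_combination - h2
  exact (hδ.mul_right_eq_zero).mp h3

/-- over a reduced ring: `tr R = 1 + δ` -/
theorem trace_eq [IsReduced T] (R : Matrix (Fin 2) (Fin 2) T) (δ : T) (hδ : IsUnit δ)
    (hdet : R.det = δ)
    (hcube : (R - 1) * (R - 1) * (R - δ • (1 : Matrix (Fin 2) (Fin 2) T)) = 0) :
    R.trace = 1 + δ := by
  have h := IsReduced.eq_zero _ ⟨3, defect_pow_three R δ hδ hdet hcube⟩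
  unfold defect at h
  linear_combination h

/-- over a reduced ring: the characteristic polynomial is `(X - 1)(X - δ)` -/
theorem charpoly_eq [IsReduced T] (R : Matrix (Fin 2) (Fin 2) T) (δ : T) (hδ : IsUnit δ)
    (hdet : R.det = δ)
    (hcube : (R - 1) * (R - 1) * (R - δ • (1 : Matrix (Fin 2) (Fin 2) T)) = 0) :
    R.charpoly = (X - C 1) * (X - C δ) := by
  nontriviality T
  rw [charpoly_fin_two, trace_eq R δ hδ hdet hcube, hdet]
  simp only [map_add, map_one]
  ring

/-! ### The same for an endomorphism of a free module of rank two -/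

/-- **`charpoly f = (X - 1)(X - δ)`** for an endomorphism `f` of a free module of rank two over a
reduced ring with `det f = δ` a unit and `(f - 1)² (f - δ) = 0`. -/
theorem charpoly_end_eq [IsReduced T] {V : Type*} [AddCommGroup V] [Module T V] [Module.Free T V]
    [Module.Finite T V] (h2 : Module.finrank T V = 2) (f : Module.End T V) (δ : T)
    (hδ : IsUnit δ) (hdet : LinearMap.det f = δ)
    (hcube : (f - 1) * (f - 1) * (f - δ • (1 : Module.End T V)) = 0) :
    LinearMap.charpoly f = (X - C 1) * (X - C δ) := by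
  classical
  nontriviality T
  let b := Module.finBasisOfFinrankEq T V h2
  have hR : (LinearMap.toMatrix b b f).det = δ := by rw [LinearMap.det_toMatrix b, hdet]
  have hc : (LinearMap.toMatrix b b f - 1) * (LinearMap.toMatrix b b f - 1)
      * (LinearMap.toMatrix b b f - δ • (1 : Matrix (Fin 2) (Fin 2) T)) = 0 := by
    have h := congrArg (LinearMap.toMatrix b b) hcube
    rw [LinearMap.toMatrix_mul, LinearMap.toMatrix_mul, map_sub, map_sub, map_smul,
      LinearMap.toMatrix_one, map_zero] at h
    exact h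
  rw [← LinearMap.charpoly_toMatrix f b]
  exact charpoly_eq _ δ hδ hR hc

end Fermat.Agent.S43.LG1.Char2
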