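/-
PROJECT R (row 37 by S43), gate `LG1Hyp` (helper4): **the gate from its three seams, with the
diamond-stability clause of the Gauss branch restricted to the `q`-part** (helper3 #6197).

`OfSeams.IsGaussBranch N q A V` asks `⟨d⟩ V = V` for EVERY `d ∈ (ℤ/Nq)ˣ`; the assembly
`gateSeam_of_seams` only uses it for the diamond `d_s` of an inertia element `s` at `q`, which is
`≡ 1 mod N`.  `IsGaussBranchR` asks it for those `d` only (this is Igusa irreducibility proper);
`lg1Hyp_of_seamsR` is `lg1Hyp_of_seams` with the weaker seam.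
-/
import Fermat.Agent.S43.LG1.OfSeams

set_option autoImplicit false
set_option linter.unusedSectionVars false

noncomputable section

namespace Fermat.Agent.S43.LG1.OfSeamsR

open AlgebraicCurve AlgebraicCurve.SemilinearAut ModularCurve
open Fermat.Agent.S48.B.Defs.Model Fermat.Agent.S48.B.ES.DiamondUnique
open Fermat.Agent.S34.KummerZ Fermat.Agent.S34.Z1Abstract Fermat.Agent.S34.WeakApprox
open Fermat.Agent.S43.LG1.OfFricke Fermat.Agent.S43.LG1.Instance
open Fermat.Agent.S43.LG1.Fricke.Seam Fermat.Agent.S43.LG1.OfSeams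

local notation "Kb" => AlgebraicClosure ℚ

attribute [local instance] Fermat.Agent.S43.LG1.Fricke.Seam.instNeZeroMul

variable (N q : ℕ) [NeZero N] [NeZero q]

/-- `d ≡ 1 mod N` : `d` lies in the `q`-part of `(ℤ/Nq)ˣ` -/
def IsQPart (d : (ZMod (N * q))ˣ) : Prop :=
  ((((d : ZMod (N * q)).val : ℕ) : ZMod N) = 1)

/-- **seam (V), restricted**: the Gauss branch, stable under the diamonds of the `q`-part only. -/
def IsGaussBranchR (A : ValuationSubring Kb) (V : ValuationSubring (F1Bar (N * q))) : Prop :=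
  (∀ s ∈ A.inertiaSubgroupIn ℚ, ∀ x ∈ V,
      arithmeticGalois (F1 (N * q)) s • x - x ∈ V.nonunits) ∧
    (∀ d : (ZMod (N * q))ˣ, IsQPart N q d →
      ∀ x : F1Bar (N * q), diamondAut (N * q) Kb d x ∈ V ↔ x ∈ V) ∧
    Arch V ∧ V ≠ ⊤ ∧
    (∀ f : F1Bar (N * q), f ≠ 0 →
      ∃ c : Kb, V.valuation f = V.valuation (algebraMap Kb (F1Bar (N * q)) c)) ∧
    (jBig N q - jSmall N q ^ q ∈ V.nonunits) ∧
    (jSmall N q - jBig N q ^ q ∉ V.nonunits)

variable {N q}

theorem isGaussBranchR_of_isGaussBranch {A : ValuationSubring Kb}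
    {V : ValuationSubring (F1Bar (N * q))} (hV : IsGaussBranch N q A V) :
    IsGaussBranchR N q A V :=
  ⟨hV.1, fun d _ => hV.2.1 d, hV.2.2⟩

/-- the two branches are distinct -/
theorem ne_pullR {A : ValuationSubring Kb} {V : ValuationSubring (F1Bar (N * q))}
    (hV : IsGaussBranchR N q A V) {w : F1Bar (N * q) ≃ₐ[Kb] F1Bar (N * q)}
    (hw : IsFricke N q w) : V ≠ pull V w := by
  intro h
  obtain ⟨-, -, -, -, -, h1, h2⟩ := hV
  obtain ⟨e1, e2⟩ := hw.1 (jBig N q) (jSmall N q) rfl rfl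
  apply h2
  have h3 : jBig N q - jSmall N q ^ q ∈ (pull V w).nonunits := by rw [← h]; exact h1
  rw [mem_nonunits_pull, map_sub, map_pow, e1, e2] at h3
  exact h3

/-- **the gate seam for one inertia element**, from the restricted Gauss branch -/
theorem gateSeam_of_seamsR {p : ℕ} {A : ValuationSubring Kb}
    {V : ValuationSubring (F1Bar (N * q))}
    (hV : IsGaussBranchR N q A V) {w : F1Bar (N * q) ≃ₐ[Kb] F1Bar (N * q)}
    (hw : IsFricke N q w) (hC : CoreZPair N q p A V w)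
    {s : Kb ≃ₐ[ℚ] Kb} (hs : s ∈ A.inertiaSubgroupIn ℚ) {d : (ZMod (N * q))ˣ}
    (hd : IsInertiaDiamond N q s d) : GateSeam (N * q) p s d := by
  have hD : IsDiamondAut (N * q) Kb d (diamondAut (N * q) Kb d) :=
    Fermat.Agent.S48.B.B1.Main.isDiamondAut_diamondAut (N * q) Kb d
  refine ⟨w, V, hw.2.2 s d _ hD hd.2 hd.1, hw.2.1 d _ hD hd.2, hV.1 s hs, hV.2.1 d hd.2, hV.2.2.1,
    hV.2.2.2.1, ne_pullR hV hw, hV.2.2.2.2.1, fun k u hu h1 h2 => hC s hs k u hu h1 h2⟩

/-- **THE GATE FROM ITS THREE SEAMS**, Gauss branch stable under the `q`-part diamonds only. -/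
theorem lg1Hyp_of_seamsR {p : ℕ} (hp : p ≠ 0) (hW : HasFricke N q)
    (hVC : ∀ A : ValuationSubring Kb, A.LiesOverPrime q →
      ∃ V : ValuationSubring (F1Bar (N * q)), IsGaussBranchR N q A V ∧
        ∀ w, IsFricke N q w → CoreZPair N q p A V w) :
    LG1Hyp N q p := by
  obtain ⟨w, hw⟩ := hW
  refine lg1Hyp_of_gateSeam hp fun A hA s hs d hd => ?_
  obtain ⟨V, hV, hC⟩ := hVC A hA
  exact gateSeam_of_seamsR hV hw (hC w hw) hs hd

end Fermat.Agent.S43.LG1.OfSeamsR
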